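import Fermat.Agent.Pic.Basic
import Fermat.Agent.AV.Places

/-!
# The charts over a domain and over a field

Over an algebraically closed ground field the charts over a domain are domains; over a field their
quotients by nonzero ideals are finite dimensional.
-/

set_option autoImplicit false

noncomputable section

universe u

open scoped TensorProduct

namespace FermatAgent.Pic

variable {k : Type u} [Field k]

namespace Curve2

variable (C : Curve2 k)

instance isDomain_R0 : IsDomain C.R0 :=
  C.inj0.isDomain (algebraMap C.R0 C.R01)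

instance isDomain_R1 : IsDomain C.R1 :=
  C.inj1.isDomain (algebraMap C.R1 C.R01)

variable (A : Type u) [CommRing A] [Algebra k A]

/-- The first chart over a domain is a domain. -/
theorem isDomain_S0 [IsAlgClosed k] [IsDomain A] : IsDomain (C.S0 A) :=
  FermatAgent.AV.isDomain_tensor

/-- The overlap over a domain is a domain. -/
theorem isDomain_S01 [IsAlgClosed k] [IsDomain A] : IsDomain (C.S01 A) :=
  FermatAgent.AV.isDomain_tensor

/-- The first chart is finite over the polynomials in its coordinate. -/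
theorem finite_aeval_xA : (Polynomial.aeval (R := A) (C.xA A)).toRingHom.Finite := by
  classical
  obtain ⟨d, b, hb⟩ := C.fin0
  let := (Polynomial.aeval (R := A) (C.xA A)).toRingHom.toAlgebra
  refine Module.Finite.of_fg_top ⟨(Finset.univ : Finset (Fin d)).image fun i => 1 ⊗ₜ b i, ?_⟩
  rw [eq_top_iff]
  rintro s -
  induction s using TensorProduct.induction_on with
  | zero => exact zero_mem _
  | tmul a r =>
    obtain ⟨c, hc, -⟩ := hb r
    rw [hc, TensorProduct.tmul_sum]
    refine sum_mem fun i _ => ?_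
    have e : (a ⊗ₜ[k] (Polynomial.aeval C.x (c i) * b i) : C.S0 A) =
        (Polynomial.C a * (c i).map (algebraMap k A)) • ((1 : A) ⊗ₜ[k] b i : C.S0 A) := by
      rw [Algebra.smul_def, RingHom.algebraMap_toAlgebra, AlgHom.toRingHom_eq_coe, RingHom.coe_coe,
        map_mul, Polynomial.aeval_C, Polynomial.aeval_map_algebraMap,
        show C.xA A = (Algebra.TensorProduct.includeRight : C.R0 →ₐ[k] C.S0 A) C.x from rfl,
        Polynomial.aeval_algHom_apply]
      simp [Algebra.TensorProduct.algebraMap_apply]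
    rw [e]
    exact Submodule.smul_mem _ _ (Submodule.subset_span (by simp))
  | add x y hx hy => exact add_mem hx hy

variable {K : Type u} [Field K] [Algebra k K] [IsAlgClosed k]

/-- A nonzero ideal of the first chart over a field has finite dimensional quotient. -/
theorem finite_quotient_S0 {I : Ideal (C.S0 K)} (hI : I ≠ ⊥) :
    Module.Finite K (C.S0 K ⧸ I) := by
  have := C.isDomain_S0 K
  let := (Polynomial.aeval (R := K) (C.xA K)).toRingHom.toAlgebra
  have : IsScalarTower K (Polynomial K) (C.S0 K) :=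
    IsScalarTower.of_algebraMap_eq fun a => ((Polynomial.aeval (C.xA K)).commutes a).symm
  have : Module.Finite (Polynomial K) (C.S0 K) := C.finite_aeval_xA K
  set q : Ideal (Polynomial K) := I.comap (algebraMap (Polynomial K) (C.S0 K))
  have : Algebra.IsIntegral (Polynomial K) (C.S0 K) := Algebra.IsIntegral.of_finite _ _
  have hq : q ≠ ⊥ := fun h => hI (Ideal.eq_bot_of_comap_eq_bot h)
  obtain ⟨p, hp, hp0⟩ := Submodule.exists_mem_ne_zero_of_ne_bot hq
  have hm : (p * Polynomial.C p.leadingCoeff⁻¹).Monic := Polynomial.monic_mul_leadingCoeff_inv hp0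
  set p' := p * Polynomial.C p.leadingCoeff⁻¹
  have : Module.Finite K (Polynomial K ⧸ Ideal.span {p'}) := hm.finite_quotient
  have hle : Ideal.span {p'} ≤ q := by
    rw [Ideal.span_singleton_le_iff_mem]
    exact Ideal.mul_mem_right _ _ hp
  have : Module.Finite K (Polynomial K ⧸ q) :=
    Module.Finite.of_surjective (Ideal.Quotient.factorₐ K hle).toLinearMap
      (Ideal.Quotient.factor_surjective hle)
  let : Algebra (Polynomial K ⧸ q) (C.S0 K ⧸ I) :=
    (Ideal.quotientMap I (algebraMap (Polynomial K) (C.S0 K)) le_rfl).toAlgebra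
  have : IsScalarTower (Polynomial K) (Polynomial K ⧸ q) (C.S0 K ⧸ I) :=
    ⟨fun f a b => by
      obtain ⟨a, rfl⟩ := Ideal.Quotient.mk_surjective a
      obtain ⟨b, rfl⟩ := Ideal.Quotient.mk_surjective b
      show Ideal.Quotient.mk I (algebraMap (Polynomial K) (C.S0 K) (f * a)) *
        Ideal.Quotient.mk I b = _
      rw [map_mul, map_mul, mul_assoc, ← map_mul (Ideal.Quotient.mk I),
        ← map_mul (Ideal.Quotient.mk I), ← Algebra.smul_def f]
      rfl⟩
  have : IsScalarTower K (Polynomial K ⧸ q) (C.S0 K ⧸ I) :=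
    ⟨fun a x y => by
      rw [← algebraMap_smul (Polynomial K) a x, smul_assoc, algebraMap_smul]⟩
  have : Module.Finite (Polynomial K ⧸ q) (C.S0 K ⧸ I) :=
    Module.Finite.of_restrictScalars_finite (Polynomial K) _ _
  exact Module.Finite.trans (Polynomial K ⧸ q) _

/-- A nonzero ideal of the overlap over a field has finite dimensional quotient. -/
theorem finite_quotient_S01 {J : Ideal (C.S01 K)} (hJ : J ≠ ⊥) :
    Module.Finite K (C.S01 K ⧸ J) := by
  set I : Ideal (C.S0 K) := J.comap (C.res0 K)
  have hI : I ≠ ⊥ := by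
    obtain ⟨s, hs, hs0⟩ := Submodule.exists_mem_ne_zero_of_ne_bot hJ
    obtain ⟨n, a, ha⟩ := C.exists_res0 K s
    intro h
    have ha0 : a = 0 := by
      rw [← Submodule.mem_bot (C.S0 K), ← h]
      show C.res0 K a ∈ J
      rw [← ha]
      exact J.mul_mem_left _ hs
    rw [ha0, map_zero] at ha
    refine hs0 ?_
    calc s = C.res1 K (C.yA K) ^ n * (C.tA K ^ n * s) := by
          rw [← mul_assoc, ← mul_pow, mul_comm (C.res1 K _), C.tA_mul_yA, one_pow, one_mul]
      _ = 0 := by rw [ha, mul_zero]
  have := C.finite_quotient_S0 hI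
  let f : C.S0 K ⧸ I →ₐ[K] C.S01 K ⧸ J := Ideal.quotientMapₐ J (C.res0 K) le_rfl
  suffices hs : Function.Surjective f from Module.Finite.of_surjective f.toLinearMap hs
  intro z
  obtain ⟨s, rfl⟩ := Ideal.Quotient.mk_surjective z
  obtain ⟨n, a, ha⟩ := C.exists_res0 K s
  let t : C.S0 K ⧸ I := Ideal.Quotient.mk I (C.xA K ^ n)
  let μ : (C.S0 K ⧸ I) →ₗ[K] C.S0 K ⧸ I := LinearMap.mulLeft K t
  have hμ : Function.Injective μ := by
    rw [← LinearMap.ker_eq_bot, eq_bot_iff]
    intro w hw
    obtain ⟨w, rfl⟩ := Ideal.Quotient.mk_surjective w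
    have hw' : Ideal.Quotient.mk I (C.xA K ^ n * w) = 0 := hw
    have h1 : C.res0 K (C.xA K ^ n * w) ∈ J := (Ideal.Quotient.eq_zero_iff_mem (I := I)).mp hw'
    rw [Submodule.mem_bot]
    refine Ideal.Quotient.eq_zero_iff_mem.mpr ?_
    show C.res0 K w ∈ J
    have e : C.res0 K w = C.res1 K (C.yA K) ^ n * C.res0 K (C.xA K ^ n * w) := by
      rw [map_mul, map_pow, ← mul_assoc, ← mul_pow, mul_comm (C.res1 K _), ← Curve2.tA,
        C.tA_mul_yA, one_pow, one_mul]
    rw [e]
    exact J.mul_mem_left _ h1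
  obtain ⟨w, hw⟩ := LinearMap.injective_iff_surjective.mp hμ (Ideal.Quotient.mk I a)
  obtain ⟨w, rfl⟩ := Ideal.Quotient.mk_surjective w
  refine ⟨Ideal.Quotient.mk I w, ?_⟩
  have h1 : C.res0 K (C.xA K ^ n * w - a) ∈ J := (Ideal.Quotient.eq (I := I)).mp
    (hw : Ideal.Quotient.mk I (C.xA K ^ n * w) = Ideal.Quotient.mk I a)
  show Ideal.Quotient.mk J (C.res0 K w) = Ideal.Quotient.mk J s
  rw [Ideal.Quotient.eq]
  have e : C.res0 K w - s = C.res1 K (C.yA K) ^ n * C.res0 K (C.xA K ^ n * w - a) := by
    rw [map_sub, map_mul, map_pow, ← ha, ← Curve2.tA, ← mul_sub, ← mul_assoc, ← mul_pow,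
      mul_comm (C.res1 K _), C.tA_mul_yA, one_pow, one_mul]
  rw [e]
  exact J.mul_mem_left _ h1

end Curve2

end FermatAgent.Pic
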