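import Mathlib

/-!
# Euler characteristics of pairs of subspaces

For subspaces `A`, `B` of a vector space `M` the characteristic is
`dim (A ⊓ B) - dim (M ⧸ A ⊔ B)`; enlarging a subspace adds the dimension of the quotient, and an
enlargement of the ambient space subtracts it.
-/

set_option autoImplicit false

noncomputable section

universe u v

namespace FermatAgent.Pic

variable {K : Type u} [Field K] {M : Type v} [AddCommGroup M] [Module K M]

/-- The pair has finite intersection and finite cokernel. -/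
def IsFiniteIndex (A B : Submodule K M) : Prop :=
  Module.Finite K (A ⊓ B : Submodule K M) ∧ Module.Finite K (M ⧸ A ⊔ B)

/-- The Euler characteristic of a pair of subspaces. -/
def pairChi (A B : Submodule K M) : ℤ :=
  (Module.finrank K (A ⊓ B : Submodule K M) : ℤ) - Module.finrank K (M ⧸ A ⊔ B)

/-- The characteristic of a pair is symmetric. -/
theorem pairChi_comm (A B : Submodule K M) : pairChi A B = pairChi B A := by
  rw [pairChi, pairChi, inf_comm, sup_comm]

/-- Finite index of a pair is symmetric. -/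
theorem IsFiniteIndex.symm {A B : Submodule K M} (h : IsFiniteIndex A B) : IsFiniteIndex B A := by
  rwa [IsFiniteIndex, inf_comm, sup_comm]

theorem finrank_map_add_finrank_inf_ker {W : Type*} [AddCommGroup W] [Module K W] (f : M →ₗ[K] W)
    (N : Submodule K M) [Module.Finite K N] :
    Module.finrank K (N.map f) + Module.finrank K (N ⊓ LinearMap.ker f : Submodule K M) =
      Module.finrank K N := by
  have h := LinearMap.finrank_range_add_finrank_ker (f.domRestrict N)
  rw [LinearMap.range_domRestrict, LinearMap.ker_domRestrict] at h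
  rw [← h, ← Submodule.map_comap_subtype]
  congr 1
  exact Submodule.finrank_map_subtype_eq N _

theorem finrank_map_mkQ_add {X Y : Submodule K M} (hXY : X ≤ Y) [Module.Finite K (M ⧸ X)] :
    Module.finrank K (Y.map X.mkQ) + Module.finrank K (M ⧸ Y) = Module.finrank K (M ⧸ X) := by
  rw [← (Submodule.quotientQuotientEquivQuotient X Y hXY).finrank_eq, add_comm]
  exact Submodule.finrank_quotient_add_finrank _

theorem finite_quotient_of_map_mkQ {X Y : Submodule K M} (hXY : X ≤ Y)
    [Module.Finite K (Y.map X.mkQ)] [Module.Finite K (M ⧸ Y)] : Module.Finite K (M ⧸ X) := by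
  have : Module.Finite K ((M ⧸ X) ⧸ Y.map X.mkQ) :=
    Module.Finite.equiv (Submodule.quotientQuotientEquivQuotient X Y hXY).symm
  exact Module.Finite.of_submodule_quotient (Y.map X.mkQ)

/-- **Enlarging a subspace** `A'` to `A` adds the dimension of `A / A'` to the characteristic. -/
theorem pairChi_of_le_left {A' A B : Submodule K M} (hA : A' ≤ A) (h : IsFiniteIndex A' B)
    [Module.Finite K (A.map A'.mkQ)] :
    IsFiniteIndex A B ∧ pairChi A B = pairChi A' B + Module.finrank K (A.map A'.mkQ) := by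
  obtain ⟨h0, h1⟩ := h
  have hle : A' ⊔ B ≤ A ⊔ B := sup_le_sup_right hA B
  have : Module.Finite K (M ⧸ (A ⊔ B)) := Submodule.CoFG.of_le hle ‹_›
  -- the intersection
  have hI : Module.Finite K ((A ⊓ B).map A'.mkQ) :=
    Submodule.finiteDimensional_of_le (Submodule.map_mono inf_le_left)
  have hker : (A ⊓ B) ⊓ LinearMap.ker A'.mkQ = A' ⊓ B := by
    rw [Submodule.ker_mkQ, inf_right_comm, inf_eq_right.mpr hA]
  have hAB : Module.Finite K (A ⊓ B : Submodule K M) := by
    apply Module.Finite.iff_fg.mpr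
    refine Submodule.fg_of_fg_map_of_fg_inf_ker A'.mkQ (Module.Finite.iff_fg.mp hI) ?_
    rw [hker]
    exact Module.Finite.iff_fg.mp h0
  have e1 := finrank_map_add_finrank_inf_ker A'.mkQ (A ⊓ B)
  rw [hker] at e1
  -- the cokernel
  let f : (M ⧸ A') →ₗ[K] M ⧸ A' ⊔ B := Submodule.factor le_sup_left
  have hf : (A.map A'.mkQ).map f = (A ⊔ B).map (A' ⊔ B).mkQ := by
    have hB : B.map (A' ⊔ B).mkQ = ⊥ := eq_bot_iff.mpr fun x ⟨b, hb, e⟩ => by
      rw [← e, Submodule.mem_bot, Submodule.mkQ_apply, Submodule.Quotient.mk_eq_zero]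
      exact Submodule.mem_sup_right hb
    rw [← Submodule.map_comp, show f ∘ₗ A'.mkQ = (A' ⊔ B).mkQ from
      Submodule.factor_comp_mk le_sup_left, Submodule.map_sup, hB, sup_bot_eq]
  have hfk : A.map A'.mkQ ⊓ LinearMap.ker f = (A ⊓ B).map A'.mkQ := by
    refine le_antisymm ?_ ?_
    · rintro _ ⟨⟨a, ha, rfl⟩, hk⟩
      obtain ⟨x, hx, y, hy, e⟩ := Submodule.mem_sup.mp
        ((Submodule.Quotient.mk_eq_zero (A' ⊔ B)).mp hk)
      refine ⟨y, ⟨?_, hy⟩, ?_⟩
      · rw [eq_sub_of_add_eq' e]; exact sub_mem ha (hA hx)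
      · rw [Submodule.mkQ_apply, Submodule.mkQ_apply, Submodule.Quotient.eq]
        have e' : a = x + y := e.symm
        rw [e', sub_add_cancel_right]
        exact neg_mem hx
    · rintro _ ⟨a, ⟨ha, hb⟩, rfl⟩
      exact ⟨⟨a, ha, rfl⟩, (Submodule.Quotient.mk_eq_zero _).mpr (Submodule.mem_sup_right hb)⟩
  have e2 := finrank_map_add_finrank_inf_ker f (A.map A'.mkQ)
  rw [hf, hfk] at e2
  have e3 := finrank_map_mkQ_add hle
  refine ⟨⟨hAB, inferInstance⟩, ?_⟩
  rw [pairChi, pairChi]
  omega

/-- Enlarging the second subspace adds the dimension of the quotient to the characteristic. -/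
theorem pairChi_of_le_right {A B' B : Submodule K M} (hB : B' ≤ B) (h : IsFiniteIndex A B')
    [Module.Finite K (B.map B'.mkQ)] :
    IsFiniteIndex A B ∧ pairChi A B = pairChi A B' + Module.finrank K (B.map B'.mkQ) := by
  obtain ⟨h1, h2⟩ := pairChi_of_le_left hB h.symm
  exact ⟨h1.symm, by rw [pairChi_comm, h2, pairChi_comm]⟩

/-- **Enlarging the ambient space** subtracts the dimension of the quotient from the
characteristic. -/
theorem pairChi_map {M' : Type*} [AddCommGroup M'] [Module K M'] {ι : M' →ₗ[K] M}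
    (hι : Function.Injective ι) {A B : Submodule K M'} (h : IsFiniteIndex A B)
    [Module.Finite K (M ⧸ LinearMap.range ι)] :
    IsFiniteIndex (A.map ι) (B.map ι) ∧
      pairChi (A.map ι) (B.map ι) = pairChi A B - Module.finrank K (M ⧸ LinearMap.range ι) := by
  obtain ⟨h0, h1⟩ := h
  have hinf : A.map ι ⊓ B.map ι = (A ⊓ B).map ι := (Submodule.map_inf ι hι).symm
  have hle : (A ⊔ B).map ι ≤ LinearMap.range ι := LinearMap.map_le_range
  let g : M' →ₗ[K] M ⧸ (A ⊔ B).map ι := ((A ⊔ B).map ι).mkQ ∘ₗ ι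
  have hg : LinearMap.ker g = A ⊔ B := by
    rw [LinearMap.ker_comp, Submodule.ker_mkQ, Submodule.comap_map_eq_of_injective hι]
  have hgr : (LinearMap.range ι).map ((A ⊔ B).map ι).mkQ = LinearMap.range g :=
    (LinearMap.range_comp _ _).symm
  let e : (M' ⧸ A ⊔ B) ≃ₗ[K] (LinearMap.range ι).map ((A ⊔ B).map ι).mkQ :=
    ((Submodule.quotEquivOfEq _ _ hg.symm).trans g.quotKerEquivRange).trans
      (LinearEquiv.ofEq _ _ hgr.symm)
  have := Module.Finite.equiv e
  have := finite_quotient_of_map_mkQ hle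
  have e1 := finrank_map_mkQ_add hle
  rw [← e.finrank_eq] at e1
  rw [IsFiniteIndex, pairChi, hinf, ← Submodule.map_sup]
  have : Module.Finite K ((A ⊓ B).map ι) :=
    Module.Finite.equiv (Submodule.equivMapOfInjective ι hι _)
  refine ⟨⟨inferInstance, inferInstance⟩, ?_⟩
  rw [← (Submodule.equivMapOfInjective ι hι (A ⊓ B)).finrank_eq, pairChi]
  omega

end FermatAgent.Pic
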