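import Fermat.Agent.Pic.Section
import Fermat.Agent.Pic.Field.Chart
import Fermat.Agent.Pic.Field.Linear

/-!
# The Euler characteristic under maps of bundles

An injective map of bundles changes the characteristic by the lengths of its cokernels on the two
charts minus the length on the overlap; a nonzero section is such a map from the trivial bundle.
-/

set_option autoImplicit false

noncomputable section

universe u

open scoped TensorProduct

namespace FermatAgent.Pic

variable {k : Type u} [Field k] {C : Curve2 k} {K : Type u} [Field K] [Algebra k K]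

/-- A linear map killing an ideal with finite quotient has finite range. -/
theorem finite_range_of_ideal {S W : Type u} [CommRing S] [Algebra K S] [AddCommGroup W]
    [Module K W] (J : Ideal S) [Module.Finite K (S ⧸ J)] (f : S →ₗ[K] W) (hf : ∀ s ∈ J, f s = 0) :
    Module.Finite K (LinearMap.range f) := by
  have : Module.Finite K (S ⧸ J.restrictScalars K) :=
    Module.Finite.equiv (Submodule.Quotient.restrictScalarsEquiv K J).symm
  let g := (J.restrictScalars K).liftQ f fun s hs => hf s hs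
  exact Module.Finite.of_surjective (g.codRestrict (LinearMap.range f) (fun x => by
      obtain ⟨s, rfl⟩ := Submodule.mkQ_surjective _ x
      exact ⟨s, rfl⟩))
    fun ⟨w, s, hs⟩ => ⟨Submodule.Quotient.mk s, Subtype.ext hs⟩

namespace Bdl

/-- Both cohomologies are finite dimensional. -/
def FiniteCoh (E : Bdl C K) : Prop := IsFiniteIndex E.L0 E.L1

theorem chi_eq_pairChi (E : Bdl C K) : E.chi = pairChi E.L0 E.L1 := rfl

variable {E E' : Bdl C K}

/-- The cokernel of a map on the first chart. -/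
def cok0 (ι : E'.M →ₗ[C.S01 K] E.M) : Submodule K (E.M ⧸ E'.L0.map (ι.restrictScalars K)) :=
  E.L0.map (E'.L0.map (ι.restrictScalars K)).mkQ

/-- The cokernel of a map on the second chart. -/
def cok1 (ι : E'.M →ₗ[C.S01 K] E.M) : Submodule K (E.M ⧸ E'.L1.map (ι.restrictScalars K)) :=
  E.L1.map (E'.L1.map (ι.restrictScalars K)).mkQ

/-- The cokernel of a map on the overlap. -/
abbrev cok01 (ι : E'.M →ₗ[C.S01 K] E.M) : Type u :=
  E.M ⧸ LinearMap.range (ι.restrictScalars K)

/-- **The characteristic along an injective map** grows by the dimensions of the cokernels on the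
two charts minus that of the cokernel on the overlap. -/
theorem chi_of_hom (hE' : E'.FiniteCoh) (ι : E'.M →ₗ[C.S01 K] E.M) (hι : Function.Injective ι)
    (h0 : ∀ m ∈ E'.L0, ι m ∈ E.L0) (h1 : ∀ m ∈ E'.L1, ι m ∈ E.L1)
    [Module.Finite K (cok0 ι)] [Module.Finite K (cok1 ι)] [Module.Finite K (cok01 ι)] :
    E.FiniteCoh ∧ E.chi = E'.chi + Module.finrank K (cok0 ι) + Module.finrank K (cok1 ι) -
      Module.finrank K (cok01 ι) := by
  obtain ⟨a1, a2⟩ := pairChi_map (ι := ι.restrictScalars K) hι hE'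
  have : Module.Finite K (E.L0.map (E'.L0.map (ι.restrictScalars K)).mkQ) :=
    ‹Module.Finite K (cok0 ι)›
  have : Module.Finite K (E.L1.map (E'.L1.map (ι.restrictScalars K)).mkQ) :=
    ‹Module.Finite K (cok1 ι)›
  obtain ⟨b1, b2⟩ := pairChi_of_le_left (A := E.L0)
    (show E'.L0.map (ι.restrictScalars K) ≤ E.L0 from fun x ⟨m, hm, e⟩ => e ▸ h0 m hm) a1
  obtain ⟨c1, c2⟩ := pairChi_of_le_right (B := E.L1)
    (show E'.L1.map (ι.restrictScalars K) ≤ E.L1 from fun x ⟨m, hm, e⟩ => e ▸ h1 m hm) b1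
  refine ⟨c1, ?_⟩
  rw [chi_eq_pairChi, chi_eq_pairChi, c2, b2, a2]
  rw [show Module.finrank K (cok0 ι) =
      Module.finrank K (E.L0.map (E'.L0.map (ι.restrictScalars K)).mkQ) from rfl,
    show Module.finrank K (cok1 ι) =
      Module.finrank K (E.L1.map (E'.L1.map (ι.restrictScalars K)).mkQ) from rfl,
    show Module.finrank K (cok01 ι) =
      Module.finrank K (E.M ⧸ LinearMap.range (ι.restrictScalars K)) from rfl]
  omega

/-- The cokernel on the overlap is spanned by the images of the first chart. -/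
theorem finrank_cok01_le_cok0 (ι : E'.M →ₗ[C.S01 K] E.M)
    [Module.Finite K (cok0 ι)] [Module.Finite K (cok01 ι)] :
    Module.finrank K (cok01 ι) ≤ Module.finrank K (cok0 ι) := by
  let f : (E.M ⧸ E'.L0.map (ι.restrictScalars K)) →ₗ[K] cok01 ι :=
    Submodule.factor LinearMap.map_le_range
  suffices h : (cok0 ι).map f = ⊤ by
    have e := Submodule.finrank_map_le f (cok0 ι)
    rwa [h, finrank_top] at e
  set N := (cok0 ι).map f
  let T : cok01 ι →ₗ[K] cok01 ι := Submodule.mapQ _ _
    (((LinearMap.lsmul (C.S01 K) E.M) (C.tA K)).restrictScalars K) (by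
      rintro _ ⟨m, rfl⟩
      exact ⟨C.tA K • m, ι.map_smul _ m⟩)
  have hT : Function.Injective T := by
    rw [← LinearMap.ker_eq_bot, eq_bot_iff]
    intro z hz
    obtain ⟨m, rfl⟩ := Submodule.mkQ_surjective _ z
    obtain ⟨m', hm'⟩ := (Submodule.Quotient.mk_eq_zero _).mp hz
    refine (Submodule.mem_bot K).mpr ((Submodule.Quotient.mk_eq_zero _).mpr
      ⟨C.res1 K (C.yA K) • m', ?_⟩)
    show ι (C.res1 K (C.yA K) • m') = m
    have hm : ι m' = C.tA K • m := hm'
    rw [map_smul, hm, smul_smul, mul_comm, C.tA_mul_yA, one_smul]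
  have hNT : ∀ z ∈ N, T z ∈ N := by
    rintro _ ⟨_, ⟨m, hm, rfl⟩, rfl⟩
    exact ⟨_, ⟨C.tA K • m, E.res0_smul_mem (C.xA K) hm, rfl⟩, rfl⟩
  rw [eq_top_iff]
  intro z _
  obtain ⟨m, rfl⟩ := Submodule.mkQ_surjective _ z
  obtain ⟨n, hn⟩ := E.exists_mem_L0 m
  induction n generalizing m with
  | zero =>
    rw [pow_zero, one_smul] at hn
    exact ⟨_, ⟨m, hn, rfl⟩, rfl⟩
  | succ n ih =>
    have h := ih (C.tA K • m) trivial (by rwa [smul_smul, ← pow_succ])
    have hsur := LinearMap.injective_iff_surjective.mp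
      (LinearMap.injective_restrict_iff hNT |>.mpr
        ((disjoint_iff.mpr (by rw [LinearMap.ker_eq_bot.mpr hT, inf_bot_eq]))))
      ⟨_, h⟩
    obtain ⟨⟨w, hw⟩, e⟩ := hsur
    have e' : T w = T (Submodule.mkQ _ m) := congrArg Subtype.val e
    exact hT e' ▸ hw

/-- The cokernel on the overlap is no larger than that on the second chart. -/
theorem finrank_cok01_le_cok1 (ι : E'.M →ₗ[C.S01 K] E.M)
    [hf : Module.Finite K (cok1 ι)] [hf' : Module.Finite K (cok01 ι)] :
    Module.finrank K (cok01 ι) ≤ Module.finrank K (cok1 ι) :=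
  @finrank_cok01_le_cok0 k _ C.swap K _ _ E.swap E'.swap ι hf hf'

/-- Without cokernels a map is an isomorphism. -/
theorem iso_of_hom (ι : E'.M →ₗ[C.S01 K] E.M) (hι : Function.Injective ι)
    (h0 : ∀ m ∈ E'.L0, ι m ∈ E.L0) (h1 : ∀ m ∈ E'.L1, ι m ∈ E.L1)
    [Module.Finite K (cok0 ι)] [Module.Finite K (cok1 ι)] [Module.Finite K (cok01 ι)]
    (e0 : Module.finrank K (cok0 ι) = 0) (e1 : Module.finrank K (cok1 ι) = 0) :
    Nonempty (Iso E' E) := by
  have e01 : Module.finrank K (cok01 ι) = 0 := by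
    have := finrank_cok01_le_cok0 ι; omega
  have hsur : Function.Surjective ι := fun m => by
    have := Module.finrank_zero_iff.mp e01
    exact (Submodule.Quotient.mk_eq_zero _).mp
      (Subsingleton.elim (Submodule.Quotient.mk (p := LinearMap.range (ι.restrictScalars K)) m) 0)
  let e := LinearEquiv.ofBijective ι ⟨hι, hsur⟩
  refine ⟨⟨e, fun m => ⟨fun hm => ?_, h0 m⟩, fun m => ⟨fun hm => ?_, h1 m⟩⟩⟩
  · have hs := Module.finrank_zero_iff.mp e0
    have hm2 : (E'.L0.map (ι.restrictScalars K)).mkQ (e m) ∈ cok0 ι := ⟨_, hm, rfl⟩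
    obtain ⟨m', hm', he⟩ := (Submodule.Quotient.mk_eq_zero _).mp
      (congrArg Subtype.val (hs.elim ⟨_, hm2⟩ 0))
    exact hι he ▸ hm'
  · have hs := Module.finrank_zero_iff.mp e1
    have hm2 : (E'.L1.map (ι.restrictScalars K)).mkQ (e m) ∈ cok1 ι := ⟨_, hm, rfl⟩
    obtain ⟨m', hm', he⟩ := (Submodule.Quotient.mk_eq_zero _).mp
      (congrArg Subtype.val (hs.elim ⟨_, hm2⟩ 0))
    exact hι he ▸ hm'

/-! ### Sections -/

/-- A section as a map from the trivial bundle. -/
def secHom (σ : E.M) : (one C K).M →ₗ[C.S01 K] E.M :=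
  (LinearMap.id : C.S01 K →ₗ[C.S01 K] C.S01 K).smulRight σ

theorem secHom_apply (σ : E.M) (s : C.S01 K) : secHom σ s = s • σ := rfl

/-- A section on the first chart maps the first lattice of the trivial bundle into the first
lattice. -/
theorem secHom_mem_L0 {σ : E.M} (hσ : σ ∈ E.L0) : ∀ s ∈ (one C K).L0, secHom σ s ∈ E.L0 := by
  intro s hs
  obtain ⟨a, ha⟩ := mem_L0_one'.mp hs
  rw [secHom_apply, ← ha]
  exact E.res0_smul_mem a hσ

/-- A section on the second chart maps the second lattice of the trivial bundle into the second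
lattice. -/
theorem secHom_mem_L1 {σ : E.M} (hσ : σ ∈ E.L1) : ∀ s ∈ (one C K).L1, secHom σ s ∈ E.L1 :=
  secHom_mem_L0 (E := E.swap) hσ

/-- A nonzero section has a nonzero coordinate. -/
theorem exists_φ0_ne_zero {σ : E.M} (hσ : σ ≠ 0) : ∃ i, E.l0.φ i σ ≠ 0 := by
  by_contra h
  push Not at h
  exact hσ (by rw [← E.l0.sum_eq σ]; simp [h])

/-- A nonzero section gives an injective map from the trivial bundle. -/
theorem secHom_injective [IsAlgClosed k] {σ : E.M} (hσ : σ ≠ 0) :
    Function.Injective (secHom σ) := by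
  have := C.isDomain_S01 K
  obtain ⟨i, hi⟩ := E.exists_φ0_ne_zero hσ
  have key : ∀ a b : C.S01 K, a • σ = b • σ → a = b := fun a b h => by
    have h1 := congrArg (E.l0.φ i) h
    rw [map_smul, map_smul, smul_eq_mul, smul_eq_mul] at h1
    exact mul_right_cancel₀ hi h1
  exact fun a b h => key a b h

/-- The coordinates of a section generate a nonzero ideal killing the cokernel. -/
theorem finite_cok0_secHom [IsAlgClosed k] {σ : E.M} (hσ : σ ∈ E.L0) (hσ0 : σ ≠ 0) :
    Module.Finite K (cok0 (secHom σ)) := by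
  choose c hc using mem_L0.mp hσ
  let J : Ideal (C.S0 K) := Ideal.span (Set.range c)
  have hJ : J ≠ ⊥ := by
    obtain ⟨i, hi⟩ := E.exists_φ0_ne_zero hσ0
    intro h
    have : c i = 0 := by
      rw [← Submodule.mem_bot (C.S0 K), ← h]
      exact Ideal.subset_span ⟨i, rfl⟩
    exact hi (by rw [← hc i, this]; exact map_zero _)
  have := C.finite_quotient_S0 hJ
  set Q := (one C K).L0.map ((secHom σ).restrictScalars K)
  let f : Fin E.l0.n → C.S0 K →ₗ[K] E.M ⧸ Q := fun i =>
    Q.mkQ ∘ₗ (((LinearMap.id : C.S01 K →ₗ[C.S01 K] C.S01 K).smulRight (E.l0.p i)).restrictScalars K)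
      ∘ₗ (C.res0 K).toLinearMap
  have hf : ∀ i, ∀ s ∈ J, f i s = 0 := by
    intro i s hs
    refine (Submodule.Quotient.mk_eq_zero Q).mpr ?_
    induction hs using Submodule.span_induction with
    | mem x hx =>
      obtain ⟨j, rfl⟩ := hx
      obtain ⟨a, ha⟩ := E.l0.mem j i
      refine ⟨C.res0 K a, mem_L0_one'.mpr ⟨a, rfl⟩, ?_⟩
      show C.res0 K a • σ = C.res0 K (c j) • E.l0.p i
      rw [show C.res0 K a = E.l0.φ j (E.l0.p i) from ha, show C.res0 K (c j) = E.l0.φ j σ from hc j,
        E.apply_smul_comm]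
    | zero => simp
    | add x y _ _ hx hy => simpa [add_smul] using add_mem hx hy
    | smul a x _ hx =>
      obtain ⟨(w : C.S01 K), hw, e⟩ := hx
      refine ⟨(C.res0 K a * w : C.S01 K), ?_, ?_⟩
      · obtain ⟨b, hb⟩ := mem_L0_one'.mp hw
        exact mem_L0_one'.mpr ⟨a * b, by rw [map_mul, hb]⟩
      · show (C.res0 K a * w) • σ = C.res0 K (a * x) • E.l0.p i
        rw [map_mul, mul_smul, mul_smul]
        exact congrArg (C.res0 K a • ·) e
  have : ∀ i, Module.Finite K (LinearMap.range (f i)) :=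
    fun i => finite_range_of_ideal J (f i) (hf i)
  have hle : cok0 (secHom σ) ≤ ⨆ i, LinearMap.range (f i) := by
    rintro _ ⟨m, hm, rfl⟩
    obtain ⟨a, rfl⟩ := E.mem_L0_iff_exists.mp hm
    rw [map_sum]
    exact sum_mem fun i _ => Submodule.mem_iSup_of_mem i ⟨a i, rfl⟩
  exact Submodule.finiteDimensional_of_le hle

/-- The cokernel of a nonzero section on the second chart is finite dimensional. -/
theorem finite_cok1_secHom [IsAlgClosed k] {σ : E.M} (hσ : σ ∈ E.L1) (hσ0 : σ ≠ 0) :
    Module.Finite K (cok1 (secHom σ)) :=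
  finite_cok0_secHom (E := E.swap) hσ hσ0

/-- The cokernel of a nonzero section on the overlap is finite dimensional. -/
theorem finite_cok01_secHom [IsAlgClosed k] {σ : E.M} (hσ0 : σ ≠ 0) :
    Module.Finite K (cok01 (secHom σ)) := by
  let J : Ideal (C.S01 K) := Ideal.span (Set.range fun i => E.l0.φ i σ)
  have hJ : J ≠ ⊥ := by
    obtain ⟨i, hi⟩ := E.exists_φ0_ne_zero hσ0
    intro h
    exact hi (by rw [← Submodule.mem_bot (C.S01 K), ← h]; exact Ideal.subset_span ⟨i, rfl⟩)
  have := C.finite_quotient_S01 hJ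
  set Q := LinearMap.range ((secHom σ).restrictScalars K)
  let f : Fin E.l0.n → C.S01 K →ₗ[K] E.M ⧸ Q := fun i =>
    Q.mkQ ∘ₗ (((LinearMap.id : C.S01 K →ₗ[C.S01 K] C.S01 K).smulRight (E.l0.p i)).restrictScalars K)
  have hle : ∀ i, J ≤ (LinearMap.range (secHom σ)).comap
      (LinearMap.toSpanSingleton (C.S01 K) E.M (E.l0.p i)) := fun i => Ideal.span_le.mpr (by
    rintro _ ⟨j, rfl⟩
    exact ⟨E.l0.φ j (E.l0.p i), E.apply_smul_comm _ _ _⟩)
  have hf : ∀ i, ∀ s ∈ J, f i s = 0 := fun i s hs =>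
    (Submodule.Quotient.mk_eq_zero Q).mpr (hle i hs)
  have : ∀ i, Module.Finite K (LinearMap.range (f i)) :=
    fun i => finite_range_of_ideal J (f i) (hf i)
  have htop : (⊤ : Submodule K (E.M ⧸ Q)) ≤ ⨆ i, LinearMap.range (f i) := by
    intro z _
    obtain ⟨m, rfl⟩ := Submodule.mkQ_surjective Q z
    rw [← E.l0.sum_eq m, map_sum]
    exact sum_mem fun i _ => Submodule.mem_iSup_of_mem i ⟨_, rfl⟩
  have := Submodule.finiteDimensional_of_le htop
  exact Module.Finite.equiv (Submodule.topEquiv (R := K) (M := E.M ⧸ Q))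

/-- **A nonzero section gives degree at least zero, with equality only for the trivial bundle.** -/
theorem deg_nonneg_of_section [IsAlgClosed k] (h1f : (one C K).FiniteCoh) {σ : E.M}
    (hσ : σ ∈ E.H0) (hσ0 : σ ≠ 0) :
    E.FiniteCoh ∧ 0 ≤ E.deg ∧ (E.deg = 0 → Nonempty (Iso (one C K) E)) := by
  have := finite_cok0_secHom hσ.1 hσ0
  have := finite_cok1_secHom hσ.2 hσ0
  have := finite_cok01_secHom hσ0
  have h0 := secHom_mem_L0 hσ.1
  have h1 := secHom_mem_L1 hσ.2
  obtain ⟨hf, hchi⟩ := chi_of_hom h1f (secHom σ) (secHom_injective hσ0) h0 h1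
  have a0 := finrank_cok01_le_cok0 (secHom σ)
  have a1 := finrank_cok01_le_cok1 (secHom σ)
  refine ⟨hf, by rw [deg, hchi]; omega, fun hd => ?_⟩
  rw [deg, hchi] at hd
  exact iso_of_hom (secHom σ) (secHom_injective hσ0) h0 h1 (by omega) (by omega)

end Bdl

end FermatAgent.Pic
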