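import Fermat.Agent.Pic.Hilb.Curve
import Fermat.Agent.Pic.Coh.Iso
import Fermat.Agent.Pic.Field.Chi

/-!
# The characteristic after twisting down by a point

Tensoring with the ideal bundle of a rational point lowers the Euler characteristic by one, and
the sections of the result are the sections vanishing at the point.
-/

set_option autoImplicit false

noncomputable section

universe u

open scoped TensorProduct

namespace FermatAgent.Pic

variable {k : Type u} [Field k] {C : Curve2 k}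

namespace Bdl

variable {A : Type u} [CommRing A] [Algebra k A]

/-- The map `m ⊗ w ↦ ι w • m`. -/
def mulInto (L E : Bdl C A) (ι : E.M →ₗ[C.S01 A] C.S01 A) :
    (L.tensor E).M →ₗ[C.S01 A] L.M :=
  ((TensorProduct.rid (C.S01 A) L.M).toLinearMap ∘ₗ LinearMap.lTensor L.M ι :
    L.M ⊗[C.S01 A] E.M →ₗ[C.S01 A] L.M)

/-- The map `m ⊗ w ↦ ι w • m` on a pure tensor. -/
theorem mulInto_tmul (L E : Bdl C A) (ι : E.M →ₗ[C.S01 A] C.S01 A) (m : L.M) (w : E.M) :
    L.mulInto E ι ((m ⊗ₜ[C.S01 A] w : L.M ⊗[C.S01 A] E.M) : (L.tensor E).M) = ι w • m := by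
  show (TensorProduct.rid (C.S01 A) L.M) (LinearMap.lTensor L.M ι (m ⊗ₜ w)) = _
  simp

/-- For injective `ι` the map `m ⊗ w ↦ ι w • m` is injective. -/
theorem mulInto_injective (L E : Bdl C A) {ι : E.M →ₗ[C.S01 A] C.S01 A}
    (hι : Function.Injective ι) : Function.Injective (L.mulInto E ι) :=
  (TensorProduct.rid (C.S01 A) L.M).injective.comp
    (Module.Flat.lTensor_preserves_injective_linearMap ι hι)

/-- The map `m ⊗ w ↦ ι w • m` respects the first lattices. -/
theorem mulInto_mem_L0 (L E : Bdl C A) {ι : E.M →ₗ[C.S01 A] C.S01 A}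
    (h0 : ∀ w ∈ E.L0, ι w ∈ (C.res0 A).range) :
    ∀ m ∈ (L.tensor E).L0, L.mulInto E ι m ∈ L.L0 := by
  intro m hm
  obtain ⟨c, rfl⟩ := (L.tensor E).mem_L0_iff_exists.mp hm
  rw [map_sum]
  refine sum_mem fun i _ => ?_
  rw [map_smul]
  refine L.res0_smul_mem _ ?_
  obtain ⟨a, ha⟩ := h0 _ (E.p_mem_L0 (finProdFinEquiv.symm i).2)
  show L.mulInto E ι ((L.l0.p _ ⊗ₜ E.l0.p _ : L.M ⊗[C.S01 A] E.M) : (L.tensor E).M) ∈ _
  rw [mulInto_tmul, ← ha]
  exact L.res0_smul_mem _ (L.p_mem_L0 _)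

/-- The map `m ⊗ w ↦ ι w • m` respects the second lattices. -/
theorem mulInto_mem_L1 (L E : Bdl C A) {ι : E.M →ₗ[C.S01 A] C.S01 A}
    (h1 : ∀ w ∈ E.L1, ι w ∈ (C.res1 A).range) :
    ∀ m ∈ (L.tensor E).L1, L.mulInto E ι m ∈ L.L1 :=
  mulInto_mem_L0 L.swap E.swap h1

variable {K : Type u} [Field K] [Algebra k K]

section PointTwist

variable (L E : Bdl C K) (P : C.R0 →ₐ[k] K) {ι : E.M →ₗ[C.S01 K] C.S01 K}

/-- The ideal of the functions on the first chart vanishing at `P`. -/
private abbrev ptIdeal : Ideal (C.S0 K) := RingHom.ker (C.pt0 K P).toRingHom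

variable (ι) in
/-- The image of the twist on the first chart. -/
private abbrev twistImage : Submodule K L.M :=
  (L.tensor E).L0.map ((L.mulInto E ι).restrictScalars K)

/-- A function differs from its value at the point by one vanishing there. -/
private lemma sub_pt0_mem_ker (z : C.S0 K) :
    z - algebraMap K (C.S0 K) (C.pt0 K P z) ∈ ptIdeal P := by
  show C.pt0 K P _ = 0
  rw [map_sub, AlgHom.commutes]
  exact sub_self _

variable (hr : LinearMap.range ι = (ptIdeal P).map (C.res0 K).toRingHom)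
  (h0 : ∀ w, w ∈ E.L0 ↔ ∃ s ∈ ptIdeal P, C.res0 K s = ι w)

include hr h0 in
/-- The image on the first chart contains `I • L0`. -/
private lemma res0_smul_mem_image {s : C.S0 K} (hs : s ∈ ptIdeal P) {m : L.M} (hm : m ∈ L.L0) :
    C.res0 K s • m ∈ twistImage L E ι := by
  obtain ⟨w, hw⟩ := hr.ge (Ideal.mem_map_of_mem _ hs)
  exact ⟨_, tmul_mem_L0 hm ((h0 w).mpr ⟨s, hs, hw.symm⟩),
    (L.mulInto_tmul E ι m w).trans (congrArg (· • m) hw)⟩

include hr in
/-- The image on the overlap contains `I • L`. -/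
private lemma smul_mem_range_mulInto {s : C.S01 K} (hs : s ∈ (ptIdeal P).map (C.res0 K).toRingHom)
    (m : L.M) : s • m ∈ LinearMap.range ((L.mulInto E ι).restrictScalars K) := by
  obtain ⟨w, hw⟩ := hr.ge hs
  exact ⟨(m ⊗ₜ[C.S01 K] w : L.M ⊗[C.S01 K] E.M),
    (L.mulInto_tmul E ι m w).trans (congrArg (· • m) hw)⟩

include h0 in
/-- The coordinates of the image on the first chart vanish at the point. -/
private lemma coord_mem_ker_of_mem_image {m : L.M} (hm : m ∈ twistImage L E ι) {i : Fin L.l0.n}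
    {z : C.S0 K}
    (hz : C.res0 K z = L.l0.φ i m) : z ∈ ptIdeal P := by
  obtain ⟨w, hw, rfl⟩ := hm
  obtain ⟨a, rfl⟩ := (L.tensor E).mem_L0_iff_exists.mp hw
  choose b hb using fun j => L.l0.mem i j
  choose d hd hde using fun j => (h0 _).mp (E.p_mem_L0 j)
  rw [show z = ∑ j, a j * (d (finProdFinEquiv.symm j).2 * b (finProdFinEquiv.symm j).1) from
    C.res0_injective K (hz.trans ?_)]
  · exact sum_mem fun j _ => Ideal.mul_mem_left _ _ (Ideal.mul_mem_right _ _ (hd _))
  rw [LinearMap.restrictScalars_apply, map_sum, map_sum, map_sum]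
  refine Finset.sum_congr rfl fun j _ => ?_
  rw [map_smul, map_smul, smul_eq_mul, map_mul, map_mul]
  show _ * L.l0.φ i (L.mulInto E ι
    ((L.l0.p _ ⊗ₜ E.l0.p _ : L.M ⊗[C.S01 K] E.M) : (L.tensor E).M)) = _
  rw [mulInto_tmul, map_smul, smul_eq_mul, ← hde, ← hb]
  rfl

include hr h0 in
/-- If a coordinate of a frame vector is nonzero at the point, that vector spans the first chart
modulo the image. -/
private lemma exists_smul_mkQ_eq {i : Fin L.l0.n} {c : C.S0 K}
    (hc : C.res0 K c = L.l0.φ i (L.l0.p i)) (hc0 : C.pt0 K P c ≠ 0) {m : L.M} (hm : m ∈ L.L0) :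
    ∃ r : K, r • (twistImage L E ι).mkQ (L.l0.p i) = (twistImage L E ι).mkQ m := by
  obtain ⟨β, hβ⟩ := mem_L0.mp hm i
  set a := C.pt0 K P c
  set b := C.pt0 K P β
  refine ⟨b / a, ?_⟩
  rw [← map_smul, Submodule.mkQ_apply, Submodule.mkQ_apply, Submodule.Quotient.eq]
  have key : C.res0 K (β - algebraMap K _ b) • L.l0.p i -
      C.res0 K (c - algebraMap K _ a) • m = a • m - b • L.l0.p i := by
    rw [map_sub, map_sub, sub_smul, sub_smul, AlgHom.commutes, AlgHom.commutes, algebraMap_smul,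
      algebraMap_smul, show C.res0 K β = L.l0.φ i m from hβ, hc,
      L.apply_smul_comm _ m (L.l0.p i)]
    abel
  have e : (b / a) • L.l0.p i - m = (-a⁻¹) • (a • m - b • L.l0.p i) := by
    rw [smul_sub, smul_smul, smul_smul, neg_mul, inv_mul_cancel₀ hc0, neg_mul,
      div_eq_inv_mul, neg_smul, neg_smul, one_smul]
    abel
  rw [e, ← key]
  exact Submodule.smul_mem _ _ (sub_mem
    (res0_smul_mem_image L E P hr h0 (sub_pt0_mem_ker P β) (L.p_mem_L0 i))
    (res0_smul_mem_image L E P hr h0 (sub_pt0_mem_ker P c) hm))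

include hr h0 in
/-- Some frame vector of the first chart spans it modulo the image, and is not in the image. -/
private lemma exists_gen : ∃ p ∈ L.L0, p ∉ twistImage L E ι ∧
    ∀ m ∈ L.L0, ∃ r : K, r • (twistImage L E ι).mkQ p = (twistImage L E ι).mkQ m := by
  choose c hc using fun i => L.l0.mem i i
  obtain ⟨i, -, hi⟩ : ∃ i ∈ Finset.univ, C.pt0 K P (c i) ≠ 0 := by
    apply Finset.exists_ne_zero_of_sum_ne_zero
    rw [← map_sum, show ∑ i, c i = 1 from C.res0_injective K (by
      rw [map_sum, map_one, ← L.sum_φ_p_L0]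
      exact Finset.sum_congr rfl fun i _ => hc i), map_one]
    exact one_ne_zero
  exact ⟨L.l0.p i, L.p_mem_L0 i, fun h => hi (coord_mem_ker_of_mem_image L E P h0 h (hc i)),
    fun m hm => exists_smul_mkQ_eq L E P hr h0 (hc i) hi hm⟩

include hr in
/-- The cokernel on the overlap is spanned by a generator of the one on the first chart: modulo
the image `t` is a constant. -/
private lemma finite_cok01_mulInto {p : L.M}
    (hspan : ∀ m ∈ L.L0, ∃ r : K, r • (twistImage L E ι).mkQ p = (twistImage L E ι).mkQ m) :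
    Module.Finite K (cok01 (L.mulInto E ι)) := by
  let f : (L.M ⧸ twistImage L E ι) →ₗ[K] cok01 (L.mulInto E ι) :=
    Submodule.factor LinearMap.map_le_range
  refine Module.Finite.of_surjective
    (LinearMap.toSpanSingleton K (cok01 (L.mulInto E ι)) (f ((twistImage L E ι).mkQ p))) fun z => ?_
  obtain ⟨m, rfl⟩ := Submodule.mkQ_surjective _ z
  obtain ⟨n, hn⟩ := L.exists_mem_L0 m
  obtain ⟨r, hr'⟩ := hspan _ hn
  let x := C.pt0 K P (C.xA K ^ n)
  have hx : (C.tA K ^ n - algebraMap K _ x) • m ∈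
      LinearMap.range ((L.mulInto E ι).restrictScalars K) := by
    refine smul_mem_range_mulInto L E P hr ?_ m
    rw [show C.tA K ^ n - algebraMap K _ x = C.res0 K (C.xA K ^ n - algebraMap K _ x) by
      rw [map_sub, AlgHom.commutes, map_pow]; rfl]
    exact Ideal.mem_map_of_mem _ (sub_pt0_mem_ker P _)
  have hn' : x • Submodule.mkQ (LinearMap.range ((L.mulInto E ι).restrictScalars K)) m =
      r • f ((twistImage L E ι).mkQ p) := by
    rw [← map_smul f, hr', ← map_smul, ← algebraMap_smul (C.S01 K) x m]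
    refine (Submodule.Quotient.eq _).mpr ?_
    show algebraMap K (C.S01 K) x • m - C.tA K ^ n • m ∈ _
    rw [← sub_smul, ← neg_sub, neg_smul]
    exact neg_mem hx
  rcases eq_or_ne x 0 with hx0 | hx0
  · refine ⟨0, ?_⟩
    rw [map_zero]
    rw [hx0, map_zero, sub_zero] at hx
    refine ((Submodule.Quotient.mk_eq_zero _).mpr ?_).symm
    obtain ⟨w, hw⟩ := hx
    refine ⟨C.res1 K (C.yA K) ^ n • w, ?_⟩
    show L.mulInto E ι (C.res1 K (C.yA K) ^ n • w) = m
    rw [map_smul, show L.mulInto E ι w = C.tA K ^ n • m from hw, smul_smul, ← mul_pow,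
      mul_comm (C.res1 K _), C.tA_mul_yA, one_pow, one_smul]
  · refine ⟨x⁻¹ * r, ?_⟩
    rw [LinearMap.toSpanSingleton_apply, mul_smul, ← hn', smul_smul, inv_mul_cancel₀ hx0, one_smul]

include hr in
/-- The cokernel on the second chart embeds into that on the overlap: a section there that is in
the image has coordinates in the ideal. -/
private lemma injective_cok1_mulInto (h1 : ∀ w, w ∈ E.L1 ↔ ∃ s, C.res1 K s = ι w) :
    Function.Injective (LinearMap.domRestrict
      (Submodule.factor (LinearMap.map_le_range (f := (L.mulInto E ι).restrictScalars K)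
        (p := (L.tensor E).L1))) (cok1 (L.mulInto E ι))) := by
  rw [← LinearMap.ker_eq_bot, eq_bot_iff]
  rintro ⟨_, m, hm, rfl⟩ hz
  obtain ⟨w, hw⟩ := (Submodule.Quotient.mk_eq_zero _).mp hz
  have hmI : ∀ i, L.l1.φ i m ∈ (ptIdeal P).map (C.res0 K).toRingHom := fun i => by
    rw [show m = L.mulInto E ι w from hw.symm]
    generalize (w : (L.tensor E).M) = z
    induction (z : L.M ⊗[C.S01 K] E.M) using TensorProduct.induction_on with
    | zero =>
      show L.l1.φ i (L.mulInto E ι (0 : (L.tensor E).M)) ∈ _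
      rw [map_zero, map_zero]
      exact zero_mem _
    | tmul p q =>
      show L.l1.φ i (L.mulInto E ι _) ∈ _
      rw [mulInto_tmul, map_smul, smul_eq_mul]
      exact Ideal.mul_mem_right _ _ (hr.le ⟨q, rfl⟩)
    | add p q hp hq =>
      exact ((congrArg (L.l1.φ i) (LinearMap.map_add (L.mulInto E ι) p q)).trans
        (map_add _ _ _)).symm ▸ add_mem hp hq
  refine Subtype.ext ((Submodule.Quotient.mk_eq_zero _).mpr ?_)
  show m ∈ _
  rw [← L.l1.sum_eq m]
  refine sum_mem fun i _ => ?_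
  obtain ⟨q, hq⟩ := hr.ge (hmI i)
  obtain ⟨s, hs⟩ := mem_L1.mp hm i
  refine ⟨(L.l1.p i ⊗ₜ[C.S01 K] q : L.M ⊗[C.S01 K] E.M),
    tmul_mem_L1 (L.p_mem_L1 i) ((h1 q).mpr ⟨s, hs.trans hq.symm⟩), ?_⟩
  rw [← hq]
  exact L.mulInto_tmul E ι _ q

end PointTwist

/-- **Twisting down by a point lowers the characteristic by one.** -/
theorem chi_tensor_point (L E : Bdl C K) (P : C.R0 →ₐ[k] K)
    (hE : E.IsNegDiv (RingHom.ker (C.pt0 K P).toRingHom)) (hf : (L.tensor E).FiniteCoh) :
    L.FiniteCoh ∧ L.chi = (L.tensor E).chi + 1 := by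
  obtain ⟨⟨ι, hι, hr, h0, h1⟩⟩ := hE
  set μ := L.mulInto E ι
  have hμ0 := L.mulInto_mem_L0 E (ι := ι) fun w hw => by
    obtain ⟨s, -, hs⟩ := (h0 w).mp hw
    exact ⟨s, hs⟩
  have hμ1 := L.mulInto_mem_L1 E (ι := ι) fun w hw => by
    obtain ⟨s, hs⟩ := (h1 w).mp hw
    exact ⟨s, hs⟩
  obtain ⟨p, hp, hp0, hspan⟩ := exists_gen L E P hr h0
  let v : cok0 μ := ⟨_, p, hp, rfl⟩
  have hv : v ≠ 0 := fun h => hp0 ((Submodule.Quotient.mk_eq_zero _).mp (congrArg Subtype.val h))
  have e0 : Module.finrank K (cok0 μ) = 1 := finrank_eq_one v hv fun z => by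
    obtain ⟨_, m, hm, rfl⟩ := z
    obtain ⟨r, h⟩ := hspan m hm
    exact ⟨r, Subtype.ext h⟩
  have : Module.Finite K (cok0 μ) := Module.finite_of_finrank_eq_succ e0
  have : Module.Finite K (cok01 μ) := finite_cok01_mulInto L E P hr hspan
  have hf1 := injective_cok1_mulInto L E P hr h1
  have : Module.Finite K (cok1 μ) := Module.Finite.of_injective _ hf1
  obtain ⟨hfin, hchi⟩ := chi_of_hom hf μ (L.mulInto_injective E hι) hμ0 hμ1
  have a1 := finrank_cok01_le_cok1 μ
  have a2 : Module.finrank K (cok1 μ) ≤ Module.finrank K (cok01 μ) :=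
    LinearMap.finrank_le_finrank_of_injective hf1
  exact ⟨hfin, by rw [hchi, e0]; omega⟩

end Bdl

end FermatAgent.Pic
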