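import Fermat.Agent.Pic.Section
import Fermat.Agent.Pic.Field.Chi

/-!
# Exchanging the charts

It preserves finiteness of the cohomology and the Euler characteristic.
-/

set_option autoImplicit false

noncomputable section

universe u

open scoped TensorProduct

namespace FermatAgent.Pic

variable {k : Type u} [Field k] {C : Curve2 k} {A : Type u} [CommRing A] [Algebra k A]

namespace Bdl

/-- A bundle on the curve from one on the curve with exchanged charts. -/
def unswap (E : Bdl C.swap A) : Bdl C A where
  M := E.M
  mod := E.mod
  tower := E.tower
  inv := E.inv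
  l0 := E.l1
  l1 := E.l0

/-- An isomorphism of bundles on the curve with exchanged charts. -/
theorem Iso.unswap {E E' : Bdl C.swap A} (i : Iso E E') : Nonempty (Iso E.unswap E'.unswap) :=
  ⟨⟨i.e, i.map_L1, i.map_L0⟩⟩

variable {K : Type u} [Field K] [Algebra k K]

/-- Exchanging the charts preserves finiteness of the cohomology. -/
theorem finiteCoh_swap (E : Bdl C K) : E.swap.FiniteCoh ↔ E.FiniteCoh :=
  ⟨fun h => h.symm, fun h => h.symm⟩

/-- Exchanging the charts preserves the Euler characteristic. -/
theorem chi_swap (E : Bdl C K) : E.swap.chi = E.chi := pairChi_comm _ _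

end Bdl

end FermatAgent.Pic
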