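import Fermat.Agent.Pic.Hilb.Bundle
import Fermat.Agent.Pic.SectionMap
import Fermat.Agent.Pic.Field.Drop
import Fermat.Agent.Pic.Field.Swap

/-!
# The ideal bundles of points of either chart

They commute with base change and agree on the overlap.
-/

set_option autoImplicit false

noncomputable section

universe u

open scoped TensorProduct

namespace FermatAgent.Pic

variable {k : Type u} [Field k] [IsAlgClosed k]

section Hilb

variable {C : Curve2 k} {A B : Type u} [CommRing A] [Algebra k A] [CommRing B] [Algebra k B]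

/-- A point of the first chart as a point of the Hilbert chart of length one. -/
def ptHilb (P : C.R0 →ₐ[k] A) : HilbPoint C (fun _ : Fin 1 => (1 : C.R0)) A where
  I := RingHom.ker (C.pt0 A P).toRingHom
  basis s := by
    refine ⟨fun _ => C.pt0 A P s, ?_, fun c hc => funext fun i => ?_⟩
    · show C.pt0 A P _ = 0
      simp [Curve2.pt0_tmul]
    · obtain rfl : i = 0 := Subsingleton.elim _ _
      have h : C.pt0 A P (s - ∑ j, c j ⊗ₜ[k] (1 : C.R0)) = 0 := hc
      simp [Curve2.pt0_tmul, sub_eq_zero] at h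
      exact h.symm

omit [IsAlgClosed k] in
theorem pt0_map0 (f : A →ₐ[k] B) (P : C.R0 →ₐ[k] A) (s : C.S0 A) :
    C.pt0 B (f.comp P) (C.map0 f s) = f (C.pt0 A P s) := by
  induction s using TensorProduct.induction_on with
  | zero => simp
  | tmul a r => simp [Curve2.map0, Curve2.pt0_tmul]
  | add a b ha hb => simp [ha, hb]

omit [IsAlgClosed k] in
theorem ptHilb_map (f : A →ₐ[k] B) (P : C.R0 →ₐ[k] A) :
    (ptHilb P).map f = ptHilb (f.comp P) := by
  have hle : ((ptHilb P).map f).I ≤ (ptHilb (f.comp P)).I := by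
    rw [HilbPoint.map_I, Ideal.map_le_iff_le_comap]
    intro s hs
    show C.pt0 B (f.comp P) (C.map0 f s) = 0
    rw [pt0_map0, show C.pt0 A P s = 0 from hs, map_zero]
  refine HilbPoint.ext (le_antisymm hle fun s hs => ?_)
  have h1 := hle (((ptHilb P).map f).sub_coord_mem s)
  have h2 : ((ptHilb P).map f).coord s = (ptHilb (f.comp P)).coord s :=
    ((ptHilb (f.comp P)).coord_eq h1).symm
  rw [← HilbPoint.coord_eq_zero_iff, h2, HilbPoint.coord_eq_zero_iff]
  exact hs

/-- The bundle of minus a point of the first chart. -/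
def negPt0 (P : C.R0 →ₐ[k] A) : Bdl C A := (ptHilb P).exists_bdl.choose

/-- The bundle of minus a point is the ideal sheaf of the point. -/
theorem negPt0_isNegDiv (P : C.R0 →ₐ[k] A) :
    (negPt0 P).IsNegDiv (RingHom.ker (C.pt0 A P).toRingHom) :=
  (ptHilb P).exists_bdl.choose_spec

/-- Base change of the bundle of minus a point. -/
theorem negPt0_map (f : A →ₐ[k] B) (P : C.R0 →ₐ[k] A) :
    (negPt0 P).map f ≈ negPt0 (f.comp P) := by
  obtain ⟨E, σ, hE, -, hI, hg⟩ := (ptHilb P).exists_bdl_generates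
  obtain ⟨i⟩ := (negPt0_isNegDiv P).iso hE
  refine Setoid.trans (show (negPt0 P).map f ≈ E.map f from ⟨i.map f⟩) ?_
  have hI' : (E.map f).secI (E.secMapTo σ f) = RingHom.ker (C.pt0 B (f.comp P)).toRingHom := by
    rw [Bdl.secI_map, hI, ← HilbPoint.map_I, ptHilb_map]
    rfl
  obtain ⟨⟨ι, hι, hr, -, -⟩⟩ := negPt0_isNegDiv (f.comp P)
  have hrange : LinearMap.range ((E.map f).secFun (E.secMapTo σ f)) = LinearMap.range ι := by
    rw [Bdl.range_secFun, hI', hr]
  let e := LinearEquiv.ofInjective ι hι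
  let g : (E.map f).M →ₗ[C.S01 B] (negPt0 (f.comp P)).M :=
    e.symm.toLinearMap ∘ₗ LinearMap.codRestrict (LinearMap.range ι)
      ((E.map f).secFun (E.secMapTo σ f)) fun m => hrange.le ⟨m, rfl⟩
  have hg' : Function.Surjective g := fun w => by
    obtain ⟨m, hm⟩ := hrange.ge ⟨w, rfl⟩
    refine ⟨m, ?_⟩
    show e.symm _ = w
    rw [e.symm_apply_eq]
    exact Subtype.ext hm
  have hinj : Function.Injective ((E.map f).secFun (E.secMapTo σ f)) := fun a b hab => by
    apply (Module.Invertible.bijective_of_surjective hg').1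
    show e.symm _ = e.symm _
    exact congrArg e.symm (Subtype.ext hab)
  exact (hI' ▸ (hg.map f).isNegDiv hinj).iso (negPt0_isNegDiv (f.comp P))

end Hilb

variable {C : Curve2 k} {A B : Type u} [CommRing A] [Algebra k A] [CommRing B] [Algebra k B]

/-- The bundle of minus a point of the second chart. -/
def negPt1 (P : C.R1 →ₐ[k] A) : Bdl C A := (negPt0 (C := C.swap) P).unswap

/-- Base change of the bundle of minus a point of the second chart. -/
theorem negPt1_map (f : A →ₐ[k] B) (P : C.R1 →ₐ[k] A) :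
    (negPt1 P).map f ≈ negPt1 (f.comp P) := by
  obtain ⟨i⟩ := negPt0_map (C := C.swap) f P
  exact i.unswap

omit [IsAlgClosed k] in
theorem lift_res0 (P : C.R01 →ₐ[k] A) (a : C.S0 A) :
    Algebra.TensorProduct.lift (AlgHom.id A A) P (fun _ _ => Commute.all _ _) (C.res0 A a) =
      C.pt0 A (P.comp (IsScalarTower.toAlgHom k C.R0 C.R01)) a := by
  induction a using TensorProduct.induction_on with
  | zero => simp
  | tmul a r => simp [Curve2.res0, Curve2.pt0_tmul]
  | add a b ha hb => simp [ha, hb]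

omit [IsAlgClosed k] in
theorem mem_map_res0_ker {P : C.R01 →ₐ[k] A} {s : C.S01 A} :
    s ∈ (RingHom.ker (C.pt0 A (P.comp (IsScalarTower.toAlgHom k C.R0 C.R01))).toRingHom).map
        (C.res0 A).toRingHom ↔
      Algebra.TensorProduct.lift (AlgHom.id A A) P (fun _ _ => Commute.all _ _) s = 0 := by
  set φ : C.S01 A →ₐ[A] A :=
    Algebra.TensorProduct.lift (AlgHom.id A A) P fun _ _ => Commute.all _ _
  have hφ : ∀ a, φ (C.res0 A a) =
      C.pt0 A (P.comp (IsScalarTower.toAlgHom k C.R0 C.R01)) a := lift_res0 P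
  constructor
  · intro h
    refine (show Ideal.map (C.res0 A).toRingHom _ ≤ RingHom.ker φ.toRingHom from ?_) h
    rw [Ideal.map_le_iff_le_comap]
    intro a ha
    exact (hφ a).trans ha
  · intro h
    obtain ⟨n, a, ha⟩ := C.exists_res0 A s
    have hs : s = C.res1 A (C.yA A) ^ n * C.res0 A a := by
      rw [← ha, ← mul_assoc, ← mul_pow, mul_comm (C.res1 A _), C.tA_mul_yA, one_pow, one_mul]
    rw [hs]
    refine Ideal.mul_mem_left _ _ (Ideal.mem_map_of_mem (C.res0 A).toRingHom ?_)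
    show C.pt0 A _ a = 0
    rw [← hφ, ← ha, map_mul, h, mul_zero]

/-- The two bundles of a point of the overlap agree. -/
theorem negPt_agree (P : C.R01 →ₐ[k] A) :
    negPt0 (P.comp (IsScalarTower.toAlgHom k C.R0 C.R01)) ≈
      negPt1 (P.comp (IsScalarTower.toAlgHom k C.R1 C.R01)) := by
  obtain ⟨⟨ι, hι, hr, h0, h1⟩⟩ := negPt0_isNegDiv (P.comp (IsScalarTower.toAlgHom k C.R0 C.R01))
  obtain ⟨⟨ι', hι', hr', h0', h1'⟩⟩ :=
    negPt0_isNegDiv (C := C.swap) (P.comp (IsScalarTower.toAlgHom k C.R1 C.R01))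
  set φ : C.S01 A →ₐ[A] A :=
    Algebra.TensorProduct.lift (AlgHom.id A A) P fun _ _ => Commute.all _ _
  have hr1 : ∀ s, (∃ w, ι w = s) ↔ φ s = 0 := fun s => by
    rw [← mem_map_res0_ker, ← hr]
    rfl
  have hr2 : ∀ s, (∃ w, ι' w = s) ↔ φ s = 0 := fun s => by
    exact (SetLike.ext_iff.mp hr' s).trans (mem_map_res0_ker (C := C.swap) (P := P) (s := s))
  let ι'' : (negPt1 (P.comp (IsScalarTower.toAlgHom k C.R1 C.R01))).M →ₗ[C.S01 A] C.S01 A := ι'
  have hrr : LinearMap.range ι = LinearMap.range ι'' := by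
    ext s
    exact (hr1 s).trans (hr2 s).symm
  let e := (LinearEquiv.ofInjective ι hι).trans
    ((LinearEquiv.ofEq _ _ hrr).trans (LinearEquiv.ofInjective ι'' hι').symm)
  have he : ∀ m, ι' (e m) = ι m := fun m =>
    congrArg Subtype.val ((LinearEquiv.ofInjective ι'' hι').apply_symm_apply _)
  refine ⟨⟨e, fun m => ?_, fun m => ?_⟩⟩
  · refine (h1' (e m)).trans (Iff.trans ?_ (h0 m).symm)
    rw [he]
    refine ⟨fun ⟨a, ha⟩ => ⟨a, ?_, ha⟩, fun ⟨a, _, ha⟩ => ⟨a, ha⟩⟩
    have h := (hr1 _).mp ⟨m, rfl⟩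
    show C.pt0 A _ a = 0
    rw [← lift_res0]
    exact (congrArg φ ha).trans h
  · refine (h0' (e m)).trans (Iff.trans ?_ (h1 m).symm)
    rw [he]
    refine ⟨fun ⟨a, _, ha⟩ => ⟨a, ha⟩, fun ⟨a, ha⟩ => ⟨a, ?_, ha⟩⟩
    have h := (hr1 _).mp ⟨m, rfl⟩
    show C.swap.pt0 A _ a = 0
    refine ((lift_res0 (C := C.swap) P a).symm.trans ?_)
    exact (congrArg φ ha).trans h

/-- Twisting down by a point of the first chart. -/
theorem chi_tensor_negPt0 {K : Type u} [Field K] [Algebra k K] (L : Bdl C K) (P : C.R0 →ₐ[k] K)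
    (hf : (L.tensor (negPt0 P)).FiniteCoh) :
    L.FiniteCoh ∧ L.chi = (L.tensor (negPt0 P)).chi + 1 :=
  L.chi_tensor_point _ P (negPt0_isNegDiv P) hf

/-- Twisting down by a point of the second chart. -/
theorem chi_tensor_negPt1 {K : Type u} [Field K] [Algebra k K] (L : Bdl C K) (P : C.R1 →ₐ[k] K)
    (hf : (L.tensor (negPt1 P)).FiniteCoh) :
    L.FiniteCoh ∧ L.chi = (L.tensor (negPt1 P)).chi + 1 := by
  obtain ⟨h1, h2⟩ := L.swap.chi_tensor_point _ P (negPt0_isNegDiv (C := C.swap) P)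
    ((Bdl.finiteCoh_swap _).mpr hf)
  refine ⟨(Bdl.finiteCoh_swap L).mp h1, ?_⟩
  rw [← Bdl.chi_swap L, h2, ← Bdl.chi_swap (L.tensor (negPt1 P))]
  rfl

end FermatAgent.Pic
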