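import Fermat.Agent.Pic.Coh.Laws
import Fermat.Agent.Pic.Field.Points
import Fermat.Agent.AV.Basic.RationalPoint

/-!
# The degree over an algebraically closed field

A bundle with a nonzero section is a sum of points, every class is a difference of two such, so
the degree is additive and a point has degree one.
-/

set_option autoImplicit false

noncomputable section

universe u

open scoped TensorProduct

namespace FermatAgent.Pic

variable {k : Type u} [Field k] {C : Curve2 k}

namespace Bdl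

variable {A : Type u} [CommRing A] [Algebra k A]

/-- A global section with coordinates in the ideal comes from the twist by minus the divisor. -/
theorem exists_section_tensor (L E : Bdl C A) {I : Ideal (C.S0 A)} (hE : E.IsNegDiv I) {σ : L.M}
    (hσ : σ ∈ L.H0) (hI : ∀ i, ∃ s ∈ I, C.res0 A s = L.l0.φ i σ) :
    ∃ τ ∈ (L.tensor E).H0, σ ≠ 0 → τ ≠ 0 := by
  obtain ⟨⟨ι, hι, hr, h0, h1⟩⟩ := hE
  choose s hs hse using hI
  have hw : ∀ i, ∃ w ∈ E.L0, ι w = C.res0 A (s i) := fun i => by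
    obtain ⟨w, hw⟩ := hr.ge (Ideal.mem_map_of_mem (C.res0 A).toRingHom (hs i))
    exact ⟨w, (h0 w).mpr ⟨s i, hs i, hw.symm⟩, hw⟩
  choose w hw hwe using hw
  let τ : (L.tensor E).M :=
    (∑ i, L.l0.p i ⊗ₜ[C.S01 A] w i : L.M ⊗[C.S01 A] E.M)
  have hτ0 : τ ∈ (L.tensor E).L0 := sum_mem fun i _ => tmul_mem_L0 (L.p_mem_L0 i) (hw i)
  have hμ : L.mulInto E ι τ = σ := by
    show L.mulInto E ι (∑ i, L.l0.p i ⊗ₜ[C.S01 A] w i : L.M ⊗[C.S01 A] E.M) = σ
    conv_rhs => rw [← L.l0.sum_eq σ]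
    refine (map_sum (L.mulInto E ι) _ _).trans (Finset.sum_congr rfl fun i _ => ?_)
    rw [L.mulInto_tmul, hwe, hse]
  have hτ1 : τ ∈ (L.tensor E).L1 := by
    choose a ha using mem_L1.mp hσ.2
    have hq : ∀ j, ∃ q ∈ E.L1, ι q = C.res1 A (a j) := fun j => by
      have hmem : C.res1 A (a j) ∈ LinearMap.range ι := by
        rw [show C.res1 A (a j) = L.l1.φ j σ from ha j, ← L.l0.sum_eq σ, map_sum]
        refine sum_mem fun i _ => ?_
        rw [map_smul, smul_eq_mul, ← hse, ← hwe, mul_comm, ← smul_eq_mul, ← map_smul]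
        exact ⟨_, rfl⟩
      obtain ⟨q, hq⟩ := hmem
      exact ⟨q, (h1 q).mpr ⟨a j, hq.symm⟩, hq⟩
    choose q hq hqe using hq
    let τ' : (L.tensor E).M :=
      (∑ j, L.l1.p j ⊗ₜ[C.S01 A] q j : L.M ⊗[C.S01 A] E.M)
    have hμ' : L.mulInto E ι τ' = σ := by
      show L.mulInto E ι (∑ j, L.l1.p j ⊗ₜ[C.S01 A] q j : L.M ⊗[C.S01 A] E.M) = σ
      conv_rhs => rw [← L.l1.sum_eq σ]
      refine (map_sum (L.mulInto E ι) _ _).trans (Finset.sum_congr rfl fun j _ => ?_)
      rw [L.mulInto_tmul, hqe]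
      exact congrArg (· • L.l1.p j) (ha j)
    rw [L.mulInto_injective E hι (hμ.trans hμ'.symm)]
    exact sum_mem fun j _ => tmul_mem_L1 (L.p_mem_L1 j) (hq j)
  exact ⟨τ, ⟨hτ0, hτ1⟩, fun hσ0 hτ => hσ0 (by rw [← hμ, hτ, map_zero])⟩

end Bdl

variable [IsAlgClosed k] {K : Type u} [Field K] [Algebra k K]

namespace Bdl

omit [IsAlgClosed k] in
/-- Both cohomologies of every bundle over a field are finite dimensional. -/
theorem finiteCoh (E : Bdl C K) : E.FiniteCoh := by
  obtain ⟨n, hn⟩ := E.exists_twist_acyclic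
  let H : Submodule K E.M := (E.twist n).H0
  have : FiniteDimensional K H := (E.twist n).finite_H0 hn
  have hle : E.H0 ≤ H := fun m hm => ⟨hm.1, (E.mem_L1_twist).mpr (by
    rw [← map_pow]; exact E.res1_smul_mem _ hm.2)⟩
  refine ⟨Submodule.finiteDimensional_of_le hle, ?_⟩
  exact E.finite_H1

theorem chi_tensor_negPt0' (L : Bdl C K) (P : C.R0 →ₐ[k] K) :
    (L.tensor (negPt0 P)).deg = L.deg - 1 := by
  have h := (chi_tensor_negPt0 L P (finiteCoh _)).2
  rw [deg, deg]; omega

theorem chi_tensor_negPt1' (L : Bdl C K) (P : C.R1 →ₐ[k] K) :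
    (L.tensor (negPt1 P)).deg = L.deg - 1 := by
  have h := (chi_tensor_negPt1 L P (finiteCoh _)).2
  rw [deg, deg]; omega

omit [IsAlgClosed k] in
/-- The trivial bundle has degree zero. -/
theorem deg_one : (one C K).deg = 0 := sub_self _

end Bdl

/-- A point of one of the charts. -/
abbrev AnyPt (C : Curve2 k) (A : Type u) [CommRing A] [Algebra k A] : Type u :=
  (C.R0 →ₐ[k] A) ⊕ (C.R1 →ₐ[k] A)

/-- The bundle of minus a point of either chart. -/
def negPt {A : Type u} [CommRing A] [Algebra k A] : AnyPt C A → Bdl C A :=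
  Sum.elim negPt0 negPt1

namespace Bdl

/-- Twisting down by a point lowers the degree by one. -/
theorem deg_tensor_negPt (L : Bdl C K) (P : AnyPt C K) : (L.tensor (negPt P)).deg = L.deg - 1 := by
  rcases P with P | P
  · exact L.chi_tensor_negPt0' P
  · exact L.chi_tensor_negPt1' P

omit [IsAlgClosed k] in
/-- A section whose coordinates generate leaves no cokernel. -/
theorem finrank_cok0_secHom_eq_zero {E : Bdl C K} {σ : E.M} {c : Fin E.l0.n → C.S0 K}
    (hc : ∀ i, C.res0 K (c i) = E.l0.φ i σ) (h0 : Ideal.span (Set.range c) = ⊤) :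
    Module.finrank K (cok0 (secHom (E := E) σ)) = 0 := by
  have hbot : cok0 (secHom (E := E) σ) = ⊥ := eq_bot_iff.mpr (by
    rintro _ ⟨m, hm, rfl⟩
    obtain ⟨a, ha⟩ := Ideal.mem_span_range_iff_exists_fun.mp
      (h0 ▸ Submodule.mem_top : (1 : C.S0 K) ∈ Ideal.span (Set.range c))
    choose b hb using mem_L0.mp hm
    refine (Submodule.mem_bot K).mpr ((Submodule.Quotient.mk_eq_zero _).mpr
      ⟨C.res0 K (∑ i, a i * b i), Bdl.mem_L0_one'.mpr ⟨_, rfl⟩, ?_⟩)
    show C.res0 K (∑ i, a i * b i) • σ = m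
    conv_rhs => rw [← one_smul (C.S01 K) m, ← map_one (C.res0 K), ← ha, map_sum, Finset.sum_smul]
    rw [map_sum, Finset.sum_smul]
    refine Finset.sum_congr rfl fun i _ => ?_
    rw [map_mul, map_mul, mul_smul, mul_smul]
    refine congrArg (C.res0 K (a i) • ·) ?_
    show C.res0 K (b i) • σ = C.res0 K (c i) • m
    rw [show C.res0 K (b i) = E.l0.φ i m from hb i, show C.res0 K (c i) = E.l0.φ i σ from hc i,
      E.apply_smul_comm])
  rw [hbot, finrank_bot]

variable [IsAlgClosed K]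

/-- A point at which a section vanishes. -/
theorem exists_point_of_deg_pos {E : Bdl C K} {σ : E.M} (hσ : σ ∈ E.H0) (hσ0 : σ ≠ 0)
    (hd : E.deg ≠ 0) : ∃ (P : AnyPt C K) (τ : (E.tensor (negPt P)).M),
      τ ∈ (E.tensor (negPt P)).H0 ∧ τ ≠ 0 := by
  -- an ideal of coordinates which is proper gives a point
  have key : ∀ {D : Curve2 k} (L : Bdl D K) (s : L.M), s ∈ L.H0 → s ≠ 0 →
      ∀ c : Fin L.l0.n → D.S0 K, (∀ i, D.res0 K (c i) = L.l0.φ i s) →
      Ideal.span (Set.range c) ≠ ⊤ → ∃ (P : D.R0 →ₐ[k] K) (τ : (L.tensor (negPt0 P)).M),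
        τ ∈ (L.tensor (negPt0 P)).H0 ∧ τ ≠ 0 := by
    intro D L s hs hs0 c hc hne
    set J := Ideal.span (Set.range c)
    obtain ⟨m, hm, hle⟩ := Ideal.exists_le_maximal J hne
    have hJ : J ≠ ⊥ := by
      obtain ⟨i, hi⟩ := L.exists_φ0_ne_zero hs0
      intro h
      have : c i = 0 := by
        rw [← Submodule.mem_bot (D.S0 K), ← h]
        exact Ideal.subset_span ⟨i, rfl⟩
      exact hi (by rw [← hc i, this, map_zero])
    have := D.finite_quotient_S0 hJ
    have : Module.Finite K (D.S0 K ⧸ m) :=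
      Module.Finite.of_surjective (Ideal.Quotient.factorₐ K hle).toLinearMap
        (Ideal.Quotient.factor_surjective hle)
    obtain ⟨ψ, hψ⟩ := AV.exists_algHom_ker (k := K) m
    let P : D.R0 →ₐ[k] K := (ψ.restrictScalars k).comp Algebra.TensorProduct.includeRight
    have hP : ∀ z, D.pt0 K P z = ψ z := fun z => by
      induction z using TensorProduct.induction_on with
      | zero => simp
      | tmul a r =>
        rw [Curve2.pt0_tmul, show (a ⊗ₜ[k] r : D.S0 K) = algebraMap K _ a * (1 ⊗ₜ r) by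
          simp [Algebra.TensorProduct.algebraMap_apply], map_mul, AlgHom.commutes]
        rfl
      | add a b ha hb => rw [map_add, map_add, ha, hb]
    have hI : ∀ i, ∃ z ∈ RingHom.ker (D.pt0 K P).toRingHom, D.res0 K z = L.l0.φ i s :=
      fun i => ⟨c i, by
        show D.pt0 K P (c i) = 0
        rw [hP]
        exact (hψ _).mpr (hle (Ideal.subset_span ⟨i, rfl⟩)), hc i⟩
    obtain ⟨τ, hτ, hτ0⟩ := L.exists_section_tensor _ (negPt0_isNegDiv P) hs hI
    exact ⟨P, τ, hτ, hτ0 hs0⟩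
  choose c hc using mem_L0.mp hσ.1
  choose c' hc' using mem_L1.mp hσ.2
  by_cases h0 : Ideal.span (Set.range c) = ⊤
  swap
  · obtain ⟨P, τ, hτ, hτ0⟩ := key E σ hσ hσ0 c hc h0
    exact ⟨Sum.inl P, τ, hτ, hτ0⟩
  by_cases h1 : Ideal.span (Set.range c') = ⊤
  swap
  · obtain ⟨P, τ, hτ, hτ0⟩ := key E.swap σ hσ.symm hσ0 c' hc' h1
    exact ⟨Sum.inr P, τ, hτ.symm, hτ0⟩
  -- otherwise the section generates
  exfalso
  have := finite_cok0_secHom hσ.1 hσ0
  have := finite_cok1_secHom hσ.2 hσ0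
  have := finite_cok01_secHom (E := E) hσ0
  obtain ⟨-, hchi⟩ := chi_of_hom (finiteCoh (one C K)) (secHom σ) (secHom_injective hσ0)
    (secHom_mem_L0 hσ.1) (secHom_mem_L1 hσ.2)
  have e0 := finrank_cok0_secHom_eq_zero (E := E) hc h0
  have e1 : Module.finrank K (cok1 (secHom (E := E) σ)) = 0 :=
    finrank_cok0_secHom_eq_zero (E := E.swap) hc' h1
  have e01 := finrank_cok01_le_cok0 (secHom (E := E) σ)
  rw [deg, hchi] at hd
  omega

/-- The class of a point. -/
def ptCls (P : AnyPt C K) : Cls C K := (cls (negPt P))⁻¹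

/-- The degree of a class. -/
def clsDeg : Cls C K → ℤ := Quotient.lift (fun E => E.deg) fun _ _ h => deg_congr h

omit [IsAlgClosed k] [IsAlgClosed K] in
/-- The degree of the class of a bundle is its degree. -/
theorem clsDeg_cls (E : Bdl C K) : clsDeg (cls E) = E.deg := rfl

omit [IsAlgClosed K] in
/-- Subtracting a point from a class lowers its degree by one. -/
theorem clsDeg_mul_ptCls_inv (x : Cls C K) (P : AnyPt C K) :
    clsDeg (x * (ptCls P)⁻¹) = clsDeg x - 1 := by
  induction x using Quotient.inductionOn with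
  | _ L => rw [ptCls, inv_inv]; exact L.deg_tensor_negPt P

omit [IsAlgClosed K] in
/-- Adding a point to a class raises its degree by one. -/
theorem clsDeg_mul_ptCls (x : Cls C K) (P : AnyPt C K) : clsDeg (x * ptCls P) = clsDeg x + 1 := by
  have h := clsDeg_mul_ptCls_inv (x * ptCls P) P
  rw [mul_inv_cancel_right] at h
  omega

/-- **A bundle with a section is a sum of points.** -/
theorem exists_points_of_section : ∀ (d : ℕ) (E : Bdl C K), E.deg = d →
    (∃ σ ∈ E.H0, σ ≠ (0 : E.M)) → ∃ p : Fin d → AnyPt C K, cls E = ∏ i, ptCls (p i) := by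
  intro d
  induction d with
  | zero =>
    rintro E hd ⟨σ, hσ, hσ0⟩
    obtain ⟨i⟩ := (deg_nonneg_of_section (finiteCoh _) hσ hσ0).2.2 hd
    exact ⟨Fin.elim0, by
      rw [Fin.prod_univ_zero]; exact (Quotient.sound ⟨i⟩ : cls (one C K) = cls E).symm⟩
  | succ d ih =>
    rintro E hd ⟨σ, hσ, hσ0⟩
    obtain ⟨P, τ, hτ, hτ0⟩ := exists_point_of_deg_pos hσ hσ0 (by omega)
    obtain ⟨p, hp⟩ := ih (E.tensor (negPt P)) (by rw [deg_tensor_negPt]; omega) ⟨τ, hτ, hτ0⟩
    refine ⟨Fin.cons P p, ?_⟩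
    rw [Fin.prod_univ_succ, Fin.cons_zero]
    simp only [Fin.cons_succ]
    rw [← hp, cls_tensor, ptCls, mul_left_comm, inv_mul_cancel, mul_one]

variable (C K) in
/-- The classes by which the degree translates additively. -/
def addSub : Subgroup (Cls C K) where
  carrier := {x | ∀ y, clsDeg (y * x) = clsDeg y + clsDeg x}
  one_mem' y := by
    have h : clsDeg (1 : Cls C K) = 0 := deg_one
    rw [mul_one, h, add_zero]
  mul_mem' {a b} ha hb y := by
    rw [← mul_assoc, hb, ha, hb]; ring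
  inv_mem' {a} ha y := by
    have h := ha (y * a⁻¹)
    have h' := ha a⁻¹
    have h1 : clsDeg (1 : Cls C K) = 0 := deg_one
    rw [inv_mul_cancel_right] at h
    rw [inv_mul_cancel, h1] at h'
    omega

omit [IsAlgClosed K] in
theorem ptCls_mem (P : AnyPt C K) : ptCls P ∈ addSub C K := fun y => by
  have h : clsDeg (ptCls P) = 1 := by
    have h1 : clsDeg (1 : Cls C K) = 0 := deg_one
    have := clsDeg_mul_ptCls (1 : Cls C K) P
    rw [one_mul, h1] at this
    omega
  rw [clsDeg_mul_ptCls, h]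

omit [IsAlgClosed k] [IsAlgClosed K] in
theorem exists_section_twist (E : Bdl C K) : ∃ n, ∃ σ ∈ (E.twist n).H0, σ ≠ (0 : E.M) := by
  obtain ⟨i, hi⟩ : ∃ i, E.l0.p i ≠ 0 := by
    by_contra h
    push Not at h
    have := E.sum_φ_p_L0
    simp [h] at this
  obtain ⟨n, hn⟩ := E.exists_mem_L1 (E.l0.p i)
  exact ⟨n, E.l0.p i, ⟨E.p_mem_L0 i, (E.mem_L1_twist).mpr hn⟩, hi⟩

/-- A property of classes closed under the group operations and true for points is true. -/
theorem cls_mem_of_ptCls_mem (S : Subgroup (Cls C K)) (hS : ∀ P, ptCls P ∈ S) (E : Bdl C K) :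
    cls E ∈ S := by
  have key : ∀ F : Bdl C K, (∃ σ ∈ F.H0, σ ≠ (0 : F.M)) → cls F ∈ S := fun F ⟨σ, hσ, hσ0⟩ => by
    have h0 := (deg_nonneg_of_section (finiteCoh _) hσ hσ0).2.1
    obtain ⟨p, hp⟩ := exists_points_of_section F.deg.toNat F (by omega) ⟨σ, hσ, hσ0⟩
    rw [hp]
    exact Subgroup.prod_mem _ fun i _ => hS (p i)
  obtain ⟨n, hn⟩ := E.exists_section_twist
  have := C.isDomain_S01 K
  have h2 : cls ((one C K).twist n) ∈ S := key _
    ⟨(1 : C.S01 K), ⟨one_mem_L0, (mem_L1_twist (one C K)).mpr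
      (mem_L1_one'.mpr ⟨C.yA K ^ n, (map_pow _ _ _).trans (mul_one _).symm⟩)⟩,
      (one_ne_zero : (1 : C.S01 K) ≠ 0)⟩
  have h1 := key (E.twist n) hn
  rw [cls_twist] at h1
  exact (Subgroup.mul_mem_cancel_left _ h2).mp h1

theorem cls_mem_addSub (E : Bdl C K) : cls E ∈ addSub C K := cls_mem_of_ptCls_mem _ ptCls_mem E

/-- **The degree is additive** under tensor products over an algebraically closed field. -/
theorem deg_tensor (E F : Bdl C K) : (E.tensor F).deg = E.deg + F.deg :=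
  cls_mem_addSub F (cls E)

/-- **The degree of a tensor product** of families is the sum of the degrees. -/
theorem hasDeg_tensor {A : Type u} [CommRing A] [Algebra k A] {E F : Bdl C A} {d e : ℤ}
    (hE : E.HasDeg d) (hF : F.HasDeg e) : (E.tensor F).HasDeg (d + e) := fun L _ _ _ f => by
  rw [deg_congr (Bdl.map_tensor f E F), deg_tensor, hE L f, hF L f]

/-- The inverse of a family of degree `d` has degree `-d`. -/
theorem hasDeg_dual {A : Type u} [CommRing A] [Algebra k A] {E : Bdl C A} {d : ℤ}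
    (hE : E.HasDeg d) : E.dual.HasDeg (-d) := fun L _ _ _ f => by
  rw [deg_congr (Bdl.map_dual f E)]
  have h := deg_tensor (E.map f) (E.map f).dual
  rw [deg_congr (Bdl.tensor_dual (E.map f)), deg_one, hE L f] at h
  linarith

end Bdl

end FermatAgent.Pic
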