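import Fermat.Agent.Pic.Field.General
import Fermat.Agent.Pic.Coh.AcyclicAt
import Fermat.Agent.Pic.Near

/-!
# The charts cover

For a class of degree zero some constant bundle of degree `genus` makes the twist acyclic at all
points at infinity: subtract rational points of the second chart, each avoiding chosen sections.
-/

set_option autoImplicit false

noncomputable section

universe u

open scoped TensorProduct

namespace FermatAgent.Pic

variable {k : Type u} [Field k] [IsAlgClosed k] {C : Curve2 k} {K : Type u} [Field K] [Algebra k K]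

namespace Bdl

/-- Twisting down by a point where a section does not vanish lowers the dimension of sections. -/
theorem finrank_H0_lt_of_not_vanish (L : Bdl C K) (Q : C.R0 →ₐ[k] K) {σ : L.M} (hσ : σ ∈ L.H0)
    (i : Fin L.l0.n) {c : C.S0 K} (hc : C.res0 K c = L.l0.φ i σ) (hne : C.pt0 K Q c ≠ 0) :
    Module.finrank K (L.tensor (negPt0 Q)).H0 < Module.finrank K L.H0 := by
  obtain ⟨⟨ι, hι, hr, h0, h1⟩⟩ := negPt0_isNegDiv Q
  let E := negPt0 Q
  have hμ0 := L.mulInto_mem_L0 E (ι := ι) fun w hw => by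
    obtain ⟨s, -, hs⟩ := (h0 w).mp hw; exact ⟨s, hs⟩
  have hμ1 := L.mulInto_mem_L1 E (ι := ι) fun w hw => by
    obtain ⟨s, hs⟩ := (h1 w).mp hw; exact ⟨s, hs⟩
  let μ := (L.mulInto E ι).restrictScalars K
  have hle : (L.tensor E).H0.map μ ≤ L.H0 := fun _ ⟨m, hm, e⟩ =>
    e ▸ ⟨hμ0 m hm.1, hμ1 m hm.2⟩
  have hvan : ∀ m ∈ (L.tensor E).L0, ∃ s, C.pt0 K Q s = 0 ∧
      C.res0 K s = L.l0.φ i (L.mulInto E ι m) := by
    intro m hm
    obtain ⟨a, rfl⟩ := (L.tensor E).mem_L0_iff_exists.mp hm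
    choose b hb using fun j => L.l0.mem i j
    have hw : ∀ j, ∃ s, C.pt0 K Q s = 0 ∧ C.res0 K s = ι (E.l0.p j) := fun j => by
      obtain ⟨s, hs, hs'⟩ := (h0 _).mp (E.p_mem_L0 j)
      exact ⟨s, hs, hs'⟩
    choose d hd hde using hw
    refine ⟨∑ l, a l * (d (finProdFinEquiv.symm l).2 * b (finProdFinEquiv.symm l).1), ?_, ?_⟩
    · rw [map_sum]
      exact Finset.sum_eq_zero fun l _ => by rw [map_mul, map_mul, hd, zero_mul, mul_zero]
    · rw [map_sum, map_sum, map_sum]
      refine Finset.sum_congr rfl fun l _ => ?_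
      rw [map_smul, map_smul, smul_eq_mul, map_mul, map_mul]
      show _ = _ * L.l0.φ i (L.mulInto E ι
        ((L.l0.p _ ⊗ₜ E.l0.p _ : L.M ⊗[C.S01 K] E.M) : (L.tensor E).M))
      rw [mulInto_tmul, map_smul, smul_eq_mul, ← hde, ← hb]
      rfl
  have hlt : (L.tensor E).H0.map μ < L.H0 := lt_of_le_of_ne hle fun h => by
    obtain ⟨m, hm, e⟩ := h.ge hσ
    obtain ⟨s, hs, hse⟩ := hvan m hm.1
    refine hne ?_
    rw [show c = s from C.res0_injective K (hc.trans ((congrArg (L.l0.φ i) e).symm.trans hse.symm))]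
    exact hs
  have : Module.Finite K L.H0 := (finiteCoh L).1
  rw [(Submodule.equivMapOfInjective μ (L.mulInto_injective E hι) (L.tensor E).H0).finrank_eq]
  exact Submodule.finrank_lt_finrank_of_lt hlt

omit [IsAlgClosed k] in
theorem finrank_H0_swap (L : Bdl C K) : Module.finrank K L.swap.H0 = Module.finrank K L.H0 :=
  (LinearEquiv.ofEq (R := K) (M := L.M) (L.L1 ⊓ L.L0) (L.L0 ⊓ L.L1) (inf_comm _ _)).finrank_eq

omit [IsAlgClosed k] in
/-- A bundle of Euler characteristic zero without sections is acyclic. -/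
theorem acyclic_of_chi_zero {L : Bdl C K} (hchi : L.chi = 0)
    (h0 : Module.finrank K L.H0 = 0) : L.Acyclic := by
  have := L.finite_H1
  rw [chi, h0] at hchi
  refine L.acyclic_iff_subsingleton.mpr ((Module.finrank_zero_iff (R := K)).mp (by omega))

/-- Acyclicity after twisting down by a point at infinity gives acyclicity at that point. -/
theorem acyclicAt_of_tensor {L : Bdl C K} (z : C.R1 →ₐ[k] K) (hz : z C.y = 0)
    (h : (L.tensor (negPt1 z)).Acyclic) : L.AcyclicAt z := by
  obtain ⟨⟨ι, hι, hr, h0, h1⟩⟩ := negPt0_isNegDiv (C := C.swap) z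
  let E := negPt1 z
  let ι' : E.M →ₗ[C.S01 K] C.S01 K := ι
  let μ := L.mulInto E ι'
  have hsur : Function.Surjective ι' := fun s => by
    have hy : C.res1 K (C.yA K) ∈ LinearMap.range ι' := hr.ge (Ideal.mem_map_of_mem _ (by
      show C.swap.pt0 K z (1 ⊗ₜ C.y) = 0
      simp [Curve2.pt0_tmul]
      exact hz))
    obtain ⟨w, hw⟩ := hy
    refine ⟨(s * C.tA K) • w, ?_⟩
    rw [map_smul, hw, smul_eq_mul, mul_assoc, C.tA_mul_yA, mul_one]
  have hm0 : ∀ m ∈ (L.tensor E).L0, μ m ∈ L.L0 := L.mulInto_mem_L0 E (ι := ι') fun w hw => by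
    obtain ⟨s, hs⟩ := (h1 w).mp hw; exact ⟨s, hs⟩
  have hm1 : ∀ m ∈ (L.tensor E).L1, μ m ∈ L.vanish z := by
    intro m hm
    obtain ⟨c, rfl⟩ := (L.tensor E).mem_L1_iff_exists.mp hm
    rw [map_sum]
    refine sum_mem fun l _ => ?_
    rw [map_smul]
    obtain ⟨s, hs, hse⟩ := (h0 _).mp (E.p_mem_L1 (finProdFinEquiv.symm l).2)
    show C.res1 K (c l) • L.mulInto E ι'
      ((L.l1.p _ ⊗ₜ E.l1.p _ : L.M ⊗[C.S01 K] E.M) : (L.tensor E).M) ∈ _
    rw [mulInto_tmul, show ι' (E.l1.p (finProdFinEquiv.symm l).2) = C.res1 K s from hse.symm,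
      smul_smul, ← map_mul]
    refine L.mem_vanish_of_pt1_eq_zero z ?_ (L.p_mem_L1 _)
    rw [map_mul]
    have : C.pt1 K z s = 0 := hs
    rw [this, mul_zero]
  rw [AcyclicAt, eq_top_iff]
  intro m _
  obtain ⟨w, rfl⟩ :=
    (show Function.Surjective μ from (TensorProduct.rid (C.S01 K) L.M).surjective.comp
    (LinearMap.lTensor_surjective L.M hsur)) m
  obtain ⟨a, ha, b, hb, rfl⟩ := Submodule.mem_sup.mp (h ▸ Submodule.mem_top :
    w ∈ (L.tensor E).L0 ⊔ (L.tensor E).L1)
  rw [map_add]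
  exact Submodule.add_mem_sup (hm0 a ha) (hm1 b hb)

variable [IsAlgClosed K]

omit [IsAlgClosed K] in
/-- A rational point at which none of finitely many nonzero functions vanishes. -/
theorem exists_rational_point_ne_zero {s : Finset (C.S1 K)} (hs : ∀ x ∈ s, x ≠ 0) :
    ∃ Q : C.R1 →ₐ[k] k, ∀ x ∈ s, C.pt1 K (C.cst K Q) x ≠ 0 := by
  classical
  obtain ⟨d, b, hb⟩ := C.fin1
  have := C.smooth1.finitePresentation
  have : Algebra.FiniteType k C.R1 := Algebra.FiniteType.of_finitePresentation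
  let e := Algebra.TensorProduct.comm k K C.R1
  obtain ⟨Q, hQ⟩ := FermatAgent.AV.exists_algHom_tensor_ne_zero (R := C.R1) (S := K)
    (s := s.image e) (by
      intro x hx
      obtain ⟨y, hy, rfl⟩ := Finset.mem_image.mp hx
      exact fun h => hs y hy (e.injective (h.trans (map_zero e).symm)))
  refine ⟨Q, fun x hx h => hQ (e x) (Finset.mem_image_of_mem e hx) ?_⟩
  rw [← h]
  clear h hx
  induction x using TensorProduct.induction_on with
  | zero => simp
  | tmul a r => simp [e, Curve2.pt1, Curve2.cst, mul_comm]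
  | add a b ha hb => rw [map_add, map_add, map_add, ha, hb]

omit [IsAlgClosed K] in
/-- Rational points can be subtracted until finitely many bundles lose a given number of
sections. -/
theorem exists_subtract {ι : Type u} [Finite ι] (F : ι → Bdl C K) (N : ℕ)
    (hF : ∀ i, Module.finrank K (F i).H0 ≤ N) : ∀ j : ℕ, j ≤ N →
    ∃ x : Cls C k, clsDeg x = -(j : ℤ) ∧ ∀ i, ∀ G : Bdl C K,
      cls G = cls (F i) * clsMap C (Algebra.ofId k K) x → Module.finrank K G.H0 ≤ N - j := by
  classical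
  have := Fintype.ofFinite ι
  intro j
  induction j with
  | zero =>
    refine fun _ => ⟨1, by rw [Nat.cast_zero, neg_zero]; exact deg_one, fun i G hG => ?_⟩
    rw [map_one, mul_one] at hG
    obtain ⟨e⟩ := cls_eq_iff.mp hG
    rw [Nat.sub_zero, e.h0.finrank_eq]
    exact hF i
  | succ j ih =>
    intro hj
    obtain ⟨x, hx, hxF⟩ := ih (by omega)
    obtain ⟨X, rfl⟩ : ∃ X, cls X = x := Quotient.exists_rep x
    let G : ι → Bdl C K := fun i => (F i).tensor (X.map (Algebra.ofId k K))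
    have hG : ∀ i, cls (G i) = cls (F i) * clsMap C (Algebra.ofId k K) (cls X) := fun i => rfl
    -- one nonzero coordinate of one section for each bundle with sections
    let I := {i // (G i).H0 ≠ ⊥}
    have hsel : ∀ i : I, ∃ σ ∈ (G i.1).H0, ∃ (l : Fin (G i.1).l1.n) (c : C.S1 K),
        C.res1 K c = (G i.1).l1.φ l σ ∧ c ≠ 0 := fun i => by
      obtain ⟨σ, hσ, hσ0⟩ := Submodule.exists_mem_ne_zero_of_ne_bot i.2
      obtain ⟨l, hl⟩ : ∃ l, (G i.1).l1.φ l σ ≠ 0 := (G i.1).swap.exists_φ0_ne_zero hσ0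
      obtain ⟨c, hc⟩ := mem_L1.mp hσ.2 l
      exact ⟨σ, hσ, l, c, hc, fun h => hl (by rw [← hc, h]; exact map_zero _)⟩
    choose σ hσ l c hc hc0 using hsel
    obtain ⟨Q, hQ⟩ := exists_rational_point_ne_zero (K := K) (s := Finset.univ.image c)
      (by simp only [Finset.mem_image, Finset.mem_univ, true_and]; rintro _ ⟨i, rfl⟩; exact hc0 i)
    refine ⟨cls X * cls (negPt1 Q), ?_, fun i H hH => ?_⟩
    · have h := clsDeg_mul_ptCls_inv (cls X) (Sum.inr Q : AnyPt C k)
      rw [ptCls, inv_inv] at h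
      show clsDeg (cls X * cls (negPt (Sum.inr Q : AnyPt C k))) = _
      rw [h, hx]; push_cast; ring
    · have hH' : cls H = cls ((G i).tensor (negPt1 (C.cst K Q))) := by
        rw [hH, map_mul, ← mul_assoc, cls_tensor, hG]
        exact congrArg _ (Quotient.sound (negPt_map (Algebra.ofId k K) (Sum.inr Q : AnyPt C k)))
      obtain ⟨e⟩ := cls_eq_iff.mp hH'
      rw [e.h0.finrank_eq]
      have hle := hxF i (G i) (hG i)
      by_cases hbot : (G i).H0 = ⊥
      · obtain ⟨⟨ι', hι', -, h0, h1⟩⟩ := negPt0_isNegDiv (C := C.swap) (C.cst K Q)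
        have hz : ((G i).swap.tensor (negPt0 (C := C.swap) (C.cst K Q))).H0 = ⊥ := by
          refine eq_bot_iff.mpr fun m hm => ?_
          let μ := (G i).swap.mulInto _ ι'
          have hmem : μ m ∈ (G i).swap.H0 :=
            ⟨(G i).swap.mulInto_mem_L0 _ (fun w hw => by
              obtain ⟨s, -, hs⟩ := (h0 w).mp hw; exact ⟨s, hs⟩) m hm.1,
            (G i).swap.mulInto_mem_L1 _ (fun w hw => by
              obtain ⟨s, hs⟩ := (h1 w).mp hw; exact ⟨s, hs⟩) m hm.2⟩
          have h2 : μ m = 0 := (Submodule.mem_bot K).mp (hbot ▸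
            (show μ m ∈ (G i).H0 from ⟨hmem.2, hmem.1⟩))
          exact (Submodule.mem_bot K).mpr
            ((G i).swap.mulInto_injective _ hι' (h2.trans (map_zero μ).symm))
        rw [← finrank_H0_swap]
        show Module.finrank K ((G i).swap.tensor (negPt0 (C := C.swap) (C.cst K Q))).H0 ≤ _
        rw [hz, finrank_bot]
        exact Nat.zero_le _
      · have hlt := finrank_H0_lt_of_not_vanish (G i).swap (C.cst K Q) (hσ ⟨i, hbot⟩).symm
          (l ⟨i, hbot⟩) (c := c ⟨i, hbot⟩) (hc ⟨i, hbot⟩)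
          (hQ _ (Finset.mem_image_of_mem c (Finset.mem_univ _)))
        rw [finrank_H0_swap] at hlt
        rw [← finrank_H0_swap]
        show Module.finrank K ((G i).swap.tensor (negPt0 (C := C.swap) (C.cst K Q))).H0 ≤ _
        omega

/-- **The charts cover**: some constant bundle of degree `genus` makes the twist of a class of
degree zero acyclic at all points at infinity. -/
theorem exists_cover (e : C.R1 →ₐ[k] k) (he : e C.y = 0) (ξ : Bdl C K) (hξ : ξ.deg = 0) :
    ∃ E0 : Bdl C k, E0.HasDeg (genus C) ∧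
      ∀ z : C.Zpt, (ξ.tensor (E0.map (Algebra.ofId k K))).AcyclicAt (C.cst K z.1) := by
  classical
  have := C.finite_zpt
  have := Fintype.ofFinite C.Zpt
  let F₀ : C.Zpt → Bdl C K := fun z => ξ.tensor (negPt1 (C.cst K z.1))
  choose n hn using fun z => (F₀ z).exists_twist_acyclic
  let m := ∑ z, n z
  let T := (one C k).twist m
  let F : C.Zpt → Bdl C K := fun z => (F₀ z).twist m
  have hFac : ∀ z, (F z).Acyclic := fun z =>
    (hn z).twist_le (Finset.single_le_sum (fun z _ => Nat.zero_le (n z)) (Finset.mem_univ z))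
  have hFchi : ∀ z, (F z).chi = T.deg - (genus C : ℤ) := fun z => by
    rw [chi_eq_deg, deg_twist, deg_tensor, hξ]
    have h := (one C K).deg_tensor_negPt (Sum.inr (C.cst K z.1))
    rw [deg_tensor, deg_one] at h
    rw [show (negPt1 (C.cst K z.1)).deg = -1 by
      show (negPt (Sum.inr (C.cst K z.1))).deg = -1; omega]
    ring
  have hFh0 : ∀ z, (Module.finrank K (F z).H0 : ℤ) = T.deg - (genus C : ℤ) := fun z => by
    have := (F z).acyclic_iff_subsingleton.mp (hFac z)
    rw [← hFchi z, chi, Module.finrank_zero_of_subsingleton (M := (F z).H1)]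
    simp
  have hpos : 0 ≤ T.deg - (genus C : ℤ) := hFh0 ⟨e, he⟩ ▸ Int.natCast_nonneg _
  obtain ⟨N, hN⟩ := Int.eq_ofNat_of_zero_le hpos
  obtain ⟨x, hx, hxF⟩ := exists_subtract F N (fun z => by have := hFh0 z; omega) N le_rfl
  obtain ⟨X, rfl⟩ : ∃ X, cls X = x := Quotient.exists_rep x
  refine ⟨T.tensor X, ?_, fun z => ?_⟩
  · rw [show (genus C : ℤ) = (T.tensor X).deg by
      rw [deg_tensor, show X.deg = -(N : ℤ) from hx]; omega]
    exact hasDeg_self _
  let G := (ξ.tensor ((T.tensor X).map (Algebra.ofId k K))).tensor (negPt1 (C.cst K z.1))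
  refine acyclicAt_of_tensor _ ?_ (show G.Acyclic from ?_)
  · show algebraMap k K (z.1 C.y) = 0
    rw [z.2, map_zero]
  have hG : cls G = cls (F z) * clsMap C (Algebra.ofId k K) (cls X) := by
    have hT : cls (T.map (Algebra.ofId k K)) = cls ((one C K).twist m) :=
      Quotient.sound ⟨(mapTwist _ _ m).trans ((mapOne _).twist m)⟩
    rw [cls_twist (F₀ z), cls_tensor, cls_tensor, cls_tensor, ← clsMap_cls, cls_tensor, map_mul,
      clsMap_cls (E := T), hT]
    ac_rfl
  refine acyclic_of_chi_zero ?_ ?_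
  · rw [chi_eq_deg, ← clsDeg_cls, hG, clsDeg_mul, clsDeg_cls, clsMap_cls, clsDeg_cls, deg_map,
      show X.deg = -(N : ℤ) from hx]
    have := hFchi z
    rw [chi_eq_deg] at this
    omega
  · have := hxF z G hG
    omega

end Bdl

end FermatAgent.Pic
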