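import Fermat.Agent.Pic.Field.Degree
import Fermat.Agent.Pic.Coh.Fibre
import Fermat.Agent.Pic.PointBundles

/-!
# Bundles of points, invariance and local constancy of the degree

Bundles of points have degree one, the degree is unchanged by field extensions and locally constant
on the base, and every class of degree zero is a sum of `genus` points minus marked ones.
-/

set_option autoImplicit false

noncomputable section

universe u

open scoped TensorProduct

namespace FermatAgent.Pic

variable {k : Type u} [Field k] [IsAlgClosed k] {C : Curve2 k}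

namespace Bdl

variable {K : Type u} [Field K] [Algebra k K]

variable [IsAlgClosed K]

omit [IsAlgClosed K] in
theorem clsDeg_ptCls (P : AnyPt C K) : clsDeg (ptCls P) = 1 := by
  have h1 : clsDeg (1 : Cls C K) = 0 := deg_one
  have h := clsDeg_mul_ptCls (1 : Cls C K) P
  rw [one_mul, h1] at h
  omega

/-- The degree of classes is additive. -/
theorem clsDeg_mul (x y : Cls C K) : clsDeg (x * y) = clsDeg x + clsDeg y :=
  Quotient.inductionOn₂ x y deg_tensor

theorem clsDeg_inv (x : Cls C K) : clsDeg x⁻¹ = -clsDeg x := by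
  have h := clsDeg_mul x⁻¹ x
  have h1 : clsDeg (1 : Cls C K) = 0 := deg_one
  rw [inv_mul_cancel, h1] at h
  omega

end Bdl

variable {A B : Type u} [CommRing A] [Algebra k A] [CommRing B] [Algebra k B]

/-- The composite of a point with a map of parameters. -/
def AnyPt.map (f : A →ₐ[k] B) : AnyPt C A → AnyPt C B := Sum.map f.comp f.comp

/-- The bundle of a point commutes with change of parameters. -/
theorem negPt_map (f : A →ₐ[k] B) (P : AnyPt C A) : (negPt P).map f ≈ negPt (P.map f) := by
  rcases P with P | P
  · exact negPt0_map f P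
  · exact negPt1_map f P

namespace Bdl

variable {K K' : Type u} [Field K] [Algebra k K] [IsAlgClosed K] [Field K'] [Algebra k K']
  [IsAlgClosed K']

/-- **The degree is unchanged by extensions of the field.** -/
theorem deg_map (f : K →ₐ[k] K') (E : Bdl C K) : (E.map f).deg = E.deg := by
  have hpt : ∀ P, clsMap C f (ptCls P) = ptCls (P.map f) := fun P => by
    rw [ptCls, map_inv, clsMap_cls, ptCls]
    exact congrArg Inv.inv (Quotient.sound (negPt_map f P))
  let S : Subgroup (Cls C K) :=
    { carrier := {x | clsDeg (clsMap C f x) = clsDeg x}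
      one_mem' := by
        show clsDeg (clsMap C f 1) = _
        rw [map_one]
        exact deg_one.trans (deg_one (C := C) (K := K)).symm
      mul_mem' := fun {a b} (ha : _ = _) (hb : _ = _) => by
        show clsDeg _ = _
        rw [map_mul, clsDeg_mul, clsDeg_mul, ha, hb]
      inv_mem' := fun {a} (ha : _ = _) => by
        show clsDeg _ = _
        rw [map_inv, clsDeg_inv, clsDeg_inv, ha] }
  exact cls_mem_of_ptCls_mem S (fun P => by
    show clsDeg _ = _
    rw [hpt, clsDeg_ptCls, clsDeg_ptCls]) E

/-- A bundle over the base field has its degree at all geometric points. -/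
theorem hasDeg_self (E : Bdl C k) : E.HasDeg E.deg := fun _ _ _ _ f => deg_map f E

/-- Twisting adds the degree of the twisted trivial bundle. -/
theorem deg_twist (E : Bdl C K) (n : ℕ) :
    (E.twist n).deg = ((one C k).twist n).deg + E.deg := by
  rw [deg_congr (⟨(twistTensor E n).symm⟩ : E.twist n ≈ _), deg_tensor,
    ← deg_map (Algebra.ofId k K) ((one C k).twist n)]
  congr 1
  exact deg_congr ⟨((mapTwist _ _ n).trans ((mapOne _).twist n)).symm⟩

omit [IsAlgClosed K] [IsAlgClosed k] in
/-- Riemann–Roch in degree form: `χ = deg + 1 - genus`. -/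
theorem chi_eq_deg (E : Bdl C K) : E.chi = E.deg + 1 - (genus C : ℤ) := by
  rw [deg, chi_one]; ring

/-- **The degree of a bundle is constant near a prime**: outside the zero set of some element not
in the prime all geometric fibres have the same degree. -/
theorem exists_hasDeg_near (E : Bdl C A) (p : Ideal A) [p.IsPrime] :
    ∃ (a : A) (d : ℤ), a ∉ p ∧ ∀ (L : Type u) [Field L] [Algebra k L] [IsAlgClosed L]
      (f : A →ₐ[k] L), f a ≠ 0 → (E.map f).deg = d := by
  obtain ⟨n, hn⟩ := E.exists_twist_acyclic
  have := (E.twist n).finite_H0 hn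
  have := (E.twist n).projective_H0 hn
  have : Module.FinitePresentation A (E.twist n).H0 :=
    Module.finitePresentation_of_projective A _
  obtain ⟨_, ⟨a, rfl⟩, ha, hle⟩ :=
    PrimeSpectrum.isTopologicalBasis_basic_opens.exists_subset_of_mem_open
    (show (⟨p, inferInstance⟩ : PrimeSpectrum A) ∈ Module.rankAtStalk (R := A) (E.twist n).H0 ⁻¹'
      {Module.rankAtStalk (R := A) (E.twist n).H0 ⟨p, inferInstance⟩} from rfl)
    ((Module.isLocallyConstant_rankAtStalk (R := A) (M := (E.twist n).H0)).isOpen_fiber _)
  refine ⟨a, (Module.rankAtStalk (R := A) (E.twist n).H0 ⟨p, inferInstance⟩ : ℤ) -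
    (1 - (genus C : ℤ)) - ((one C k).twist n).deg, ha, fun L _ _ _ f hfa => ?_⟩
  let := f.toRingHom.toAlgebra
  have : IsScalarTower k A L := IsScalarTower.of_algebraMap_eq fun c => (f.commutes c).symm
  have hq := hle (show PrimeSpectrum.comap f.toRingHom (⊥ : PrimeSpectrum L) ∈
    PrimeSpectrum.basicOpen a from fun h => hfa ((Submodule.mem_bot L).mp h))
  have h1 := (E.twist n).finrank_tensor_H0 (K := L) hn
  have h2 : Module.finrank L (L ⊗[A] (E.twist n).H0) =
      Module.rankAtStalk (R := A) (E.twist n).H0 ⟨p, inferInstance⟩ := by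
    rw [← hq, show PrimeSpectrum.comap f.toRingHom (⊥ : PrimeSpectrum L) =
      (⊥ : PrimeSpectrum L).comap (algebraMap A L) from rfl, ← Module.rankAtStalk_baseChange,
      Module.rankAtStalk_eq_finrank_of_free]
    rfl
  rw [h2, chi_eq_deg, show IsScalarTower.toAlgHom k A L = f from AlgHom.ext fun _ => rfl,
    deg_congr (⟨mapTwist f E n⟩ : (E.twist n).map f ≈ _), deg_twist] at h1
  omega

end Bdl

/-! ### The bundles of points -/

variable {K : Type u} [Field K] [Algebra k K] [IsAlgClosed K]

/-- The bundle of minus a point has degree `-1`. -/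
theorem negPt_hasDeg (P : AnyPt C A) : (negPt P).HasDeg (-1) := fun L _ _ _ f => by
  rw [Bdl.deg_congr (negPt_map f P)]
  have h := (Bdl.one C L).deg_tensor_negPt (P.map f)
  rw [Bdl.deg_tensor, Bdl.deg_one] at h
  omega

theorem dual_negPt_hasDeg (P : AnyPt C A) : (negPt P).dual.HasDeg 1 := by
  simpa using Bdl.hasDeg_dual (negPt_hasDeg P)

theorem dual_negPt_map (f : A →ₐ[k] B) (P : AnyPt C A) :
    (negPt P).dual.map f ≈ (negPt (P.map f)).dual :=
  Setoid.trans (Bdl.map_dual f _) (Bdl.dual_congr (negPt_map f P))

omit [IsAlgClosed k] [IsAlgClosed K] in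
theorem Bdl.exists_section_of_chi_pos {E : Bdl C K} (h : 0 < E.chi) :
    ∃ σ ∈ E.H0, σ ≠ (0 : E.M) := by
  by_contra hne
  push Not at hne
  have : E.H0 = ⊥ := eq_bot_iff.mpr fun σ hσ => hne σ hσ
  rw [Bdl.chi, this, finrank_bot] at h
  omega

/-- **Every class of degree zero is a sum of points minus the marked point.** -/
theorem surj_points (e : C.R1 →ₐ[k] k) (ξ : Bdl C K) (hξ : ξ.HasDeg 0) :
    ∃ p : Fin (Bdl.genus C) → AnyPt C K,
      ξ.tensor (Bdl.prod fun _ : Fin (Bdl.genus C) => (negPt1 (C.cst K e)).dual) ≈
        Bdl.prod fun i => (negPt (p i)).dual := by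
  set F := ξ.tensor (Bdl.prod fun _ : Fin (Bdl.genus C) => (negPt1 (C.cst K e)).dual)
  have hcls : Bdl.cls F = Bdl.cls ξ * Bdl.ptCls (Sum.inr (C.cst K e)) ^ Bdl.genus C := by
    rw [Bdl.cls_tensor, Bdl.cls_prod, Finset.prod_const, Finset.card_univ, Fintype.card_fin]
    rfl
  have hd : F.deg = (Bdl.genus C : ℤ) := by
    have hξ0 : ξ.deg = 0 := by
      rw [← hξ K (AlgHom.id k K)]
      exact Bdl.deg_congr ⟨(Bdl.mapId ξ).symm⟩
    have hpow : ∀ (x : Bdl.Cls C K) (m : ℕ), Bdl.clsDeg (x ^ m) = m * Bdl.clsDeg x := by
      intro x m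
      induction m with
      | zero =>
        rw [pow_zero, Nat.cast_zero, zero_mul]
        exact Bdl.deg_one
      | succ m ih => rw [pow_succ, Bdl.clsDeg_mul, ih]; push_cast; ring
    rw [← Bdl.clsDeg_cls F, hcls, Bdl.clsDeg_mul, hpow, Bdl.clsDeg_ptCls, Bdl.clsDeg_cls, hξ0]
    ring
  obtain ⟨p, hp⟩ := Bdl.exists_points_of_section _ F hd
    (Bdl.exists_section_of_chi_pos (by rw [Bdl.chi_eq_deg, hd]; omega))
  exact ⟨p, Quotient.exact (hp.trans (Bdl.cls_prod fun i => (negPt (p i)).dual).symm)⟩

/-- **The bundles of points**: there are bundles of degree one of the points of both charts,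
functorial and agreeing on the overlap, with every class of degree zero a sum of `genus` points
minus as many copies of the marked point. -/
theorem exists_pointBdls (C : Curve2 k) (e : C.R1 →ₐ[k] k) : Nonempty (PointBdls C e) := by
  refine ⟨{ pt0 := fun P => (negPt0 P).dual
            pt1 := fun P => (negPt1 P).dual
            map0 := fun f P => dual_negPt_map f (Sum.inl P)
            map1 := fun f P => dual_negPt_map f (Sum.inr P)
            deg0 := fun P => dual_negPt_hasDeg (Sum.inl P)
            deg1 := fun P => dual_negPt_hasDeg (Sum.inr P)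
            agree := fun P => Bdl.dual_congr (negPt_agree P)
            surj := fun ξ hξ => ?_ }⟩
  obtain ⟨p, hp⟩ := surj_points e ξ hξ
  exact ⟨p, by
    refine Setoid.trans hp ?_
    rw [show (fun i => (negPt (p i)).dual) = fun i => Sum.elim (fun P => (negPt0 P).dual)
      (fun P => (negPt1 P).dual) (p i) from funext fun i => by rcases p i with P | P <;> rfl]⟩

end FermatAgent.Pic
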